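import Fermat.Agent.S41.CSP.Defs

/-!
# S41, package CSP, leaf (ADM): every level prime to `q` has an admissible power

`m₀(M₀ ^ E') = m₀(M₀)` for `E' ≥ 1` (same prime factors), so `Q = q ^ m₀ - 1 > 0` is fixed, and
`r ^ (v_r(M₀ ^ E') + 1) ≥ 2 ^ (E' + 1) > Q` as soon as `E' ≥ q ^ m₀`.
-/

set_option autoImplicit false

namespace Fermat.Agent.S41

open Matrix
open scoped MatrixGroups

theorem s41ca_M0_pow (M₀ : ℕ) {E' : ℕ} (hE' : E' ≠ 0) : s41cM0 (M₀ ^ E') = s41cM0 M₀ := by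
  unfold s41cM0
  rw [Nat.primeFactors_pow M₀ hE']

theorem s41ca_M0_ne_zero (M : ℕ) : s41cM0 M ≠ 0 := by
  unfold s41cM0
  refine mul_ne_zero two_ne_zero (Finset.prod_ne_zero_iff.mpr fun r hr => ?_)
  have := (Nat.prime_of_mem_primeFactors hr).two_le
  omega

/-- (ADM) every level prime to `q` has an admissible power. -/
theorem s41c_exists_adm {q : ℕ} (hq : q.Prime) {M₀ : ℕ} (hM₀ : 0 < M₀) (hcop : Nat.Coprime M₀ q) :
    ∃ E : ℕ, 0 < E ∧ ∀ E' : ℕ, E ≤ E' → S41cAdm q (M₀ ^ E') := by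
  have hEpos : 0 < q ^ s41cM0 M₀ := Nat.pow_pos hq.pos
  refine ⟨q ^ s41cM0 M₀, hEpos, ?_⟩
  intro E' hE'
  have hE'0 : E' ≠ 0 := by omega
  refine ⟨Nat.pow_pos hM₀, Nat.Coprime.pow_left E' hcop, ?_⟩
  intro r hr hrM hdvd
  have : Fact r.Prime := ⟨hr⟩
  rw [s41ca_M0_pow M₀ hE'0] at hdvd
  have hrM₀ : r ∣ M₀ := hr.dvd_of_dvd_pow hrM
  have hv : 1 ≤ padicValNat r M₀ := one_le_padicValNat_of_dvd hM₀.ne' hrM₀
  rw [padicValNat.pow M₀ E'] at hdvd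
  -- `q ^ m₀ - 1 > 0`
  have hQ : 0 < q ^ s41cM0 M₀ - 1 := by
    have h2 : 2 ≤ q ^ s41cM0 M₀ := by
      calc 2 ≤ q := hq.two_le
        _ = q ^ 1 := (pow_one q).symm
        _ ≤ q ^ s41cM0 M₀ :=
          Nat.pow_le_pow_right hq.pos (Nat.one_le_iff_ne_zero.mpr (s41ca_M0_ne_zero M₀))
    omega
  have hle : r ^ (E' * padicValNat r M₀ + 1) ≤ q ^ s41cM0 M₀ - 1 := Nat.le_of_dvd hQ hdvd
  have h1 : E' + 1 ≤ E' * padicValNat r M₀ + 1 := by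
    have : E' * 1 ≤ E' * padicValNat r M₀ := Nat.mul_le_mul_left E' hv
    omega
  have h2 : 2 ^ (E' + 1) ≤ r ^ (E' * padicValNat r M₀ + 1) :=
    calc 2 ^ (E' + 1) ≤ r ^ (E' + 1) := Nat.pow_le_pow_left hr.two_le _
      _ ≤ r ^ (E' * padicValNat r M₀ + 1) := Nat.pow_le_pow_right hr.pos h1
  have h3 : E' + 1 < 2 ^ (E' + 1) := Nat.lt_two_pow_self
  omega

end Fermat.Agent.S41
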