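import Mathlib

/-!
# S41, package CSP (centrality / "Ihara–Eisenstein"): definitions

`A = ℤ[1/q] ⊂ ℚ`, `G = SL₂(A)` as a subgroup of `SL(2, ℚ)`, the principal congruence subgroups
`Γ_A(M)`, the groups `Δ_N = Γ₀(N)(A)`, the elementary matrices `u s`, `l s`, the diagonal
matrices `h w`, and the admissibility condition on the level used in the centrality theorem.
-/

set_option autoImplicit false

namespace Fermat.Agent.S41

open Matrix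
open scoped MatrixGroups

/-- `ℤ[1/q]` as a subring of `ℚ`: the `x` with `x * q ^ k ∈ ℤ` for some `k`. -/
def s41cA (q : ℕ) : Subring ℚ where
  carrier := {x | ∃ (k : ℕ) (m : ℤ), x * (q : ℚ) ^ k = m}
  mul_mem' := by
    rintro x y ⟨k, m, hx⟩ ⟨l, n, hy⟩
    refine ⟨k + l, m * n, ?_⟩
    push_cast
    rw [← hx, ← hy]
    ring
  one_mem' := ⟨0, 1, by simp⟩
  add_mem' := by
    rintro x y ⟨k, m, hx⟩ ⟨l, n, hy⟩
    refine ⟨k + l, m * (q : ℤ) ^ l + n * (q : ℤ) ^ k, ?_⟩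
    push_cast
    rw [← hx, ← hy]
    ring
  zero_mem' := ⟨0, 0, by simp⟩
  neg_mem' := by
    rintro x ⟨k, m, hx⟩
    refine ⟨k, -m, ?_⟩
    push_cast
    rw [← hx]
    ring

theorem s41cA_mem {q : ℕ} {x : ℚ} : x ∈ s41cA q ↔ ∃ (k : ℕ) (m : ℤ), x * (q : ℚ) ^ k = m :=
  Iff.rfl

theorem s41cA_int (q : ℕ) (m : ℤ) : (m : ℚ) ∈ s41cA q := ⟨0, m, by simp⟩

theorem s41cA_nat (q : ℕ) (m : ℕ) : (m : ℚ) ∈ s41cA q := ⟨0, m, by simp⟩

/-- `1 / q ^ k ∈ ℤ[1/q]`. -/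
theorem s41cA_inv_pow {q : ℕ} (hq : q ≠ 0) (k : ℕ) : ((q : ℚ) ^ k)⁻¹ ∈ s41cA q := by
  refine ⟨k, 1, ?_⟩
  have : (q : ℚ) ^ k ≠ 0 := pow_ne_zero _ (Nat.cast_ne_zero.mpr hq)
  simp [inv_mul_cancel₀ this]

/-- `y ∈ M • ℤ[1/q]`. -/
def s41cDvd (q M : ℕ) (y : ℚ) : Prop := ∃ z ∈ s41cA q, y = (M : ℚ) * z

/-- `G = SL₂(ℤ[1/q])` inside `SL(2, ℚ)`. -/
def s41cG (q : ℕ) : Subgroup SL(2, ℚ) where
  carrier := {x | ∀ i j, x i j ∈ s41cA q}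
  mul_mem' := by
    intro x y hx hy i j
    rw [Matrix.SpecialLinearGroup.coe_mul, Matrix.mul_apply]
    exact Subring.sum_mem _ fun k _ => Subring.mul_mem _ (hx i k) (hy k j)
  one_mem' := by
    intro i j
    rw [Matrix.SpecialLinearGroup.coe_one, Matrix.one_apply]
    split_ifs
    · exact Subring.one_mem _
    · exact Subring.zero_mem _
  inv_mem' := by
    intro x hx i j
    rw [Matrix.SpecialLinearGroup.coe_inv, Matrix.adjugate_fin_two]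
    fin_cases i <;> fin_cases j <;> simp <;> exact hx _ _

theorem s41cG_mem {q : ℕ} {x : SL(2, ℚ)} : x ∈ s41cG q ↔ ∀ i j, x i j ∈ s41cA q := Iff.rfl

/-- The principal congruence subgroup `Γ_A(M)` of `G = SL₂(ℤ[1/q])`. -/
def s41cGam (q M : ℕ) : Set SL(2, ℚ) :=
  {x | x ∈ s41cG q ∧ s41cDvd q M (x 0 0 - 1) ∧ s41cDvd q M (x 0 1) ∧ s41cDvd q M (x 1 0) ∧
    s41cDvd q M (x 1 1 - 1)}

/-- `Δ_N = Γ₀(N)(ℤ[1/q])`: lower left entry in `N • A`. -/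
def s41cDelta (q N : ℕ) : Set SL(2, ℚ) :=
  {x | x ∈ s41cG q ∧ s41cDvd q N (x 1 0)}

/-- upper unipotent -/
def s41cU (s : ℚ) : SL(2, ℚ) := ⟨!![1, s; 0, 1], by simp [Matrix.det_fin_two]⟩

/-- lower unipotent -/
def s41cL (s : ℚ) : SL(2, ℚ) := ⟨!![1, 0; s, 1], by simp [Matrix.det_fin_two]⟩

/-- `diag(w, w⁻¹)` (equal to `1`-ish junk if `w = 0`; only used for `w ≠ 0`). -/
def s41cH (w : ℚ) (hw : w ≠ 0) : SL(2, ℚ) :=
  ⟨!![w, 0; 0, w⁻¹], by simp [Matrix.det_fin_two, mul_inv_cancel₀ hw]⟩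

/-- `m₀(M) = 2 ∏_{r ∣ M prime} (r - 1)`. -/
def s41cM0 (M : ℕ) : ℕ := 2 * ∏ r ∈ M.primeFactors, (r - 1)

/-- Admissible level: prime to `q`, and the `r`-part of `q ^ m₀(M) - 1` divides `M` for all `r ∣ M`. -/
def S41cAdm (q M : ℕ) : Prop :=
  0 < M ∧ Nat.Coprime M q ∧
    ∀ r : ℕ, r.Prime → r ∣ M → ¬ (r ^ (padicValNat r M + 1) ∣ q ^ s41cM0 M - 1)

/-- `M* = M` for odd `M`, `2M` for even `M`. -/
def s41cStar (M : ℕ) : ℕ := if 2 ∣ M then 2 * M else M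

end Fermat.Agent.S41
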