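import Mathlib
import Fermat.Agent.S41.CSP.Defs

/-!
# S41, package CSP, row AR : the arithmetic lemma `s41c_arith`

`M` admissible for `q`, `ℓ` an odd prime not dividing `M q`, `ℓ ≢ 1` modulo the odd primes of `M`
and `ℓ ≡ 3 mod 4` if `M` is even.  Then the powers `q ^ (2 e)` with `q ^ e ≡ 1 mod M` fill the
kernel of `(ℤ/M M* ℓ)ˣ → (ℤ/M* ℓ)ˣ`.

Route: `P = ∏_{r ∣ M} (r - 1)`, `Y = q ^ P`, `X = Y ^ 2 = q ^ m₀`; `N₁ = (ℓ - 1)/2 * (M / gcd(M, X - 1))`,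
`W = X ^ N₁`.  Lifting the exponent: `v_r(W - 1) = v_r(M)` exactly for all `r ∣ M`, `ℓ ∣ W - 1`, so
`W ^ 2 = 1 + M* ℓ Θ` with `Θ` prime to `M`; binomial theorem modulo `(M* ℓ) ^ 2`.
-/

set_option autoImplicit false

namespace Fermat.Agent.S41

/-- the binomial congruence `(1 + t) ^ j ≡ 1 + j t mod t ^ 2`. -/
theorem s41car_one_add_pow (t : ℤ) (j : ℕ) : (1 + t) ^ j ≡ 1 + j * t [ZMOD t ^ 2] := by
  induction j with
  | zero => simp
  | succ j ih =>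
    have h1 : (1 + t) ^ (j + 1) ≡ (1 + j * t) * (1 + t) [ZMOD t ^ 2] := by
      rw [pow_succ (1 + t)]
      exact ih.mul_right _
    refine h1.trans ?_
    rw [Int.modEq_iff_dvd]
    exact ⟨-(j : ℤ), by push_cast; ring⟩

/-- an odd square is `1 mod 4`. -/
theorem s41car_sq_mod_four {Z : ℕ} (hZ : ¬ 2 ∣ Z) : Z ^ 2 % 4 = 1 := by
  obtain ⟨k, rfl⟩ : Odd Z := Nat.odd_iff.mpr (by omega)
  have : (2 * k + 1) ^ 2 = 4 * (k * k + k) + 1 := by ring
  omega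

/-- lifting the exponent, uniformly in `r` (odd or `2`), for a square base. -/
theorem s41car_lte {r : ℕ} (hr : r.Prime) {Y : ℕ} (hY1 : 1 < Y) (hrY : ¬ r ∣ Y)
    (hrX : r ∣ Y ^ 2 - 1) {n : ℕ} (hn : n ≠ 0) :
    ((Y ^ 2) ^ n - 1).factorization r = (Y ^ 2 - 1).factorization r + n.factorization r := by
  have : Fact r.Prime := ⟨hr⟩
  rw [Nat.factorization_def _ hr, Nat.factorization_def _ hr, Nat.factorization_def _ hr]
  rcases hr.eq_two_or_odd' with rfl | hodd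
  · have h2Y : 2 ∣ Y - 1 := by omega
    have h := padicValNat.pow_two_sub_pow (x := Y) (y := 1) hY1 h2Y hrY (n := 2 * n)
      (by omega) (even_two_mul n)
    have h1 : Y ^ 2 - 1 = (Y + 1) * (Y - 1) := by
      have := Nat.sq_sub_sq Y 1
      rwa [one_pow] at this
    have h2 : padicValNat 2 (Y ^ 2 - 1) = padicValNat 2 (Y + 1) + padicValNat 2 (Y - 1) := by
      rw [h1]
      exact padicValNat.mul (by omega) (by omega)
    have h3 : padicValNat 2 (2 * n) = 1 + padicValNat 2 n := by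
      rw [padicValNat.mul (by norm_num) hn, padicValNat_self]
    rw [one_pow, pow_mul, h3] at h
    omega
  · have hY2 : 1 < Y ^ 2 := Nat.one_lt_pow (by norm_num) hY1
    have h := padicValNat.pow_sub_pow (p := r) hodd (x := Y ^ 2) (y := 1) hY2 hrX
      (fun hd => hrY (hr.dvd_of_dvd_pow hd)) hn
    rwa [one_pow] at h

/-- exact valuations at all primes of `M` give divisibility with a cofactor prime to `M`. -/
theorem s41car_exact {M b : ℕ} (hM : M ≠ 0) (hb : b ≠ 0)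
    (h : ∀ r : ℕ, r.Prime → r ∣ M → b.factorization r = M.factorization r) :
    ∃ c : ℕ, b = M * c ∧ Nat.Coprime c M := by
  have hdvd : M ∣ b := by
    rw [← Nat.factorization_prime_le_iff_dvd hM hb]
    intro p hp
    by_cases hpM : p ∣ M
    · exact (h p hp hpM).ge
    · rw [Nat.factorization_eq_zero_of_not_dvd hpM]
      exact Nat.zero_le _
  obtain ⟨c, rfl⟩ := hdvd
  refine ⟨c, rfl, Nat.coprime_of_dvd fun k hk hkc hkM => ?_⟩
  have h1 : k ^ (M.factorization k + 1) ∣ M * c := by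
    rw [pow_succ]
    exact Nat.mul_dvd_mul (Nat.ordProj_dvd M k) hkc
  have h2 := (hk.pow_dvd_iff_le_factorization hb).mp h1
  rw [h k hk hkM] at h2
  omega

/-- solving `j Θ ≡ s mod M` with `j ≥ 0`. -/
theorem s41car_exists_mul {M Θ : ℕ} (hM : 0 < M) (hcop : Nat.Coprime Θ M) (s : ℤ) :
    ∃ j : ℕ, (j : ℤ) * (Θ : ℤ) ≡ s [ZMOD (M : ℤ)] := by
  have : NeZero M := ⟨hM.ne'⟩
  refine ⟨((s : ZMod M) * ((ZMod.unitOfCoprime Θ hcop)⁻¹ : (ZMod M)ˣ)).val, ?_⟩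
  rw [← ZMod.intCast_eq_intCast_iff]
  push_cast
  rw [ZMod.natCast_zmod_val, ← ZMod.coe_unitOfCoprime Θ hcop, mul_assoc, Units.inv_mul, mul_one]

/-- the final step: binomial theorem. -/
theorem s41car_final {q M Ms ℓ E1 W Θ c : ℕ} (hMs : Ms = c * M) (hM : 0 < M) (hWq : W = q ^ E1)
    (hW1 : (W : ℤ) ≡ 1 [ZMOD (M : ℤ)]) (hW2 : W ^ 2 = 1 + Ms * ℓ * Θ)
    (hcop : Nat.Coprime Θ M) (s : ℤ) :
    ∃ e : ℕ, (q : ℤ) ^ e ≡ 1 [ZMOD (M : ℤ)] ∧
      (q : ℤ) ^ (2 * e) ≡ 1 + ((Ms : ℤ) * ℓ) * s [ZMOD (M : ℤ) * ((Ms : ℤ) * ℓ)] := by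
  obtain ⟨j, hj⟩ := s41car_exists_mul hM hcop s
  have hWqz : (W : ℤ) = (q : ℤ) ^ E1 := by rw [hWq]; push_cast; rfl
  have hW2z : (W : ℤ) ^ 2 = 1 + (Ms : ℤ) * ℓ * Θ := by exact_mod_cast hW2
  refine ⟨E1 * j, ?_, ?_⟩
  · rw [pow_mul, ← hWqz]
    simpa using hW1.pow j
  · have h1 : (q : ℤ) ^ (2 * (E1 * j)) = (1 + (Ms : ℤ) * ℓ * Θ) ^ j := by
      rw [show 2 * (E1 * j) = E1 * 2 * j by ring, pow_mul, pow_mul, ← hWqz, hW2z]
    rw [h1]
    have h2 := s41car_one_add_pow ((Ms : ℤ) * ℓ * Θ) j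
    have hdvd : (M : ℤ) * ((Ms : ℤ) * ℓ) ∣ ((Ms : ℤ) * ℓ * Θ) ^ 2 := by
      refine ⟨(c : ℤ) * ℓ * Θ ^ 2, ?_⟩
      rw [hMs]
      push_cast
      ring
    refine (Int.ModEq.of_dvd hdvd h2).trans ?_
    have h3 := hj.mul_left' (c := (Ms : ℤ) * ℓ)
    have h4 : (1 : ℤ) + j * ((Ms : ℤ) * ℓ * Θ) = 1 + (Ms : ℤ) * ℓ * ((j : ℤ) * Θ) := by ring
    rw [h4, mul_comm (M : ℤ)]
    exact h3.add_left 1

/-- (AR) the arithmetic lemma: powers of `q²` fill the kernel of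
`(ℤ/M M* ℓ)ˣ → (ℤ/M* ℓ)ˣ`. -/
theorem s41c_arith {q : ℕ} (hq : q.Prime) {M : ℕ} (hM : S41cAdm q M) {ℓ : ℕ} (hℓ : ℓ.Prime)
    (hℓM : ¬ ℓ ∣ M) (hℓq : ℓ ≠ q) (hℓ2 : ℓ ≠ 2)
    (hodd : ∀ r : ℕ, r.Prime → r ∣ M → r ≠ 2 → ¬ r ∣ ℓ - 1) (heven : 2 ∣ M → ℓ % 4 = 3)
    (s : ℤ) :
    ∃ e : ℕ, (q : ℤ) ^ e ≡ 1 [ZMOD (M : ℤ)] ∧
      (q : ℤ) ^ (2 * e) ≡ 1 + ((s41cStar M : ℤ) * ℓ) * s
        [ZMOD (M : ℤ) * ((s41cStar M : ℤ) * ℓ)] := by
  obtain ⟨hM0, hMq, hadm⟩ := hM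
  -- the basic quantities
  set P : ℕ := ∏ r ∈ M.primeFactors, (r - 1) with hP
  have hP0 : P ≠ 0 := by
    rw [hP, Finset.prod_ne_zero_iff]
    intro r hr
    have := (Nat.prime_of_mem_primeFactors hr).two_le
    omega
  have hm0 : s41cM0 M = 2 * P := rfl
  set Y : ℕ := q ^ P with hY
  have hY1 : 1 < Y := Nat.one_lt_pow hP0 hq.one_lt
  have hX : q ^ s41cM0 M = Y ^ 2 := by rw [hm0, hY, pow_mul']
  have hY2 : 1 < Y ^ 2 := Nat.one_lt_pow (by norm_num) hY1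
  have hd0 : Y ^ 2 - 1 ≠ 0 := by omega
  -- facts at the primes of `M`
  have hrq : ∀ r : ℕ, r.Prime → r ∣ M → ¬ r ∣ q := by
    intro r hr hrM hrq
    have := Nat.dvd_gcd hrM hrq
    rw [hMq] at this
    exact hr.one_lt.ne' (Nat.dvd_one.mp this)
  have hrY : ∀ r : ℕ, r.Prime → r ∣ M → ¬ r ∣ Y := fun r hr hrM h =>
    hrq r hr hrM (hr.dvd_of_dvd_pow h)
  have hrX : ∀ r : ℕ, r.Prime → r ∣ M → r ∣ Y ^ 2 - 1 := by
    intro r hr hrM
    have hcop : Nat.Coprime q r := ((Nat.Prime.coprime_iff_not_dvd hr).mpr (hrq r hr hrM)).symm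
    have h1 : q ^ (r - 1) ≡ 1 [MOD r] := by
      have := Nat.ModEq.pow_totient hcop
      rwa [Nat.totient_prime hr] at this
    have hdvd : r - 1 ∣ P := Finset.dvd_prod_of_mem _ (Nat.mem_primeFactors.mpr ⟨hr, hrM, hM0.ne'⟩)
    obtain ⟨c, hc⟩ := hdvd
    have h2 : Y ≡ 1 [MOD r] := by
      rw [hY, hc, pow_mul]
      simpa using h1.pow c
    have h3 : Y ^ 2 ≡ 1 [MOD r] := by simpa using h2.pow 2
    exact (Nat.modEq_iff_dvd' hY2.le).mp h3.symm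
  have hfe : ∀ r : ℕ, r.Prime → r ∣ M → (Y ^ 2 - 1).factorization r ≤ M.factorization r := by
    intro r hr hrM
    have h1 := hadm r hr hrM
    rw [hX, hr.pow_dvd_iff_le_factorization hd0, ← Nat.factorization_def _ hr] at h1
    omega
  -- the exponent
  set g : ℕ := Nat.gcd M (Y ^ 2 - 1) with hg
  have hgM : g ∣ M := Nat.gcd_dvd_left _ _
  have hg0 : g ≠ 0 := Nat.gcd_ne_zero_left hM0.ne'
  set n1 : ℕ := M / g with hn1
  have hn10 : n1 ≠ 0 := by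
    rw [hn1]
    exact (Nat.div_pos (Nat.le_of_dvd hM0 hgM) (Nat.pos_of_ne_zero hg0)).ne'
  have hℓ3 : 3 ≤ ℓ := by
    have := hℓ.two_le
    omega
  have hℓodd : ℓ % 2 = 1 := by
    rcases hℓ.eq_two_or_odd with h | h
    · exact absurd h hℓ2
    · exact h
  set n : ℕ := (ℓ - 1) / 2 with hn
  have hn0 : n ≠ 0 := by omega
  have h2n : 2 * n = ℓ - 1 := by omega
  have hN0 : n * n1 ≠ 0 := Nat.mul_ne_zero hn0 hn10
  set W : ℕ := (Y ^ 2) ^ (n * n1) with hW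
  have hW1 : 1 < W := Nat.one_lt_pow hN0 hY2
  -- valuations of the exponent
  have hvn : ∀ r : ℕ, r.Prime → r ∣ M → n.factorization r = 0 := by
    intro r hr hrM
    apply Nat.factorization_eq_zero_of_not_dvd
    intro hrn
    by_cases hr2 : r = 2
    · subst hr2
      have := heven hrM
      omega
    · exact hodd r hr hrM hr2 (h2n ▸ Dvd.dvd.mul_left hrn 2)
  have hvn1 : ∀ r : ℕ, r.Prime → r ∣ M →
      n1.factorization r = M.factorization r - (Y ^ 2 - 1).factorization r := by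
    intro r hr hrM
    rw [hn1, Nat.factorization_div hgM, Finsupp.tsub_apply, hg,
      Nat.factorization_gcd hM0.ne' hd0, Finsupp.inf_apply, min_eq_right (hfe r hr hrM)]
  have hkey : ∀ r : ℕ, r.Prime → r ∣ M → (W - 1).factorization r = M.factorization r := by
    intro r hr hrM
    rw [hW, s41car_lte hr hY1 (hrY r hr hrM) (hrX r hr hrM) hN0, Nat.factorization_mul hn0 hn10,
      Finsupp.add_apply, hvn r hr hrM, hvn1 r hr hrM]
    have := hfe r hr hrM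
    omega
  obtain ⟨Θ', hΘ', hcopΘ'⟩ := s41car_exact hM0.ne' (by omega : W - 1 ≠ 0) hkey
  -- `ℓ ∣ W - 1`
  have hℓW : ℓ ∣ W - 1 := by
    have hcop : Nat.Coprime q ℓ := (Nat.coprime_primes hq hℓ).mpr (Ne.symm hℓq)
    have h1 : q ^ (ℓ - 1) ≡ 1 [MOD ℓ] := by
      have := Nat.ModEq.pow_totient hcop
      rwa [Nat.totient_prime hℓ] at this
    have h2 : W = (q ^ (ℓ - 1)) ^ (P * n1) := by
      rw [hW, hY, ← h2n, ← pow_mul, ← pow_mul, ← pow_mul]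
      congr 1
      ring
    have h3 : W ≡ 1 [MOD ℓ] := by
      rw [h2]
      simpa using h1.pow (P * n1)
    exact (Nat.modEq_iff_dvd' hW1.le).mp h3.symm
  have hℓcop : Nat.Coprime ℓ M := (Nat.Prime.coprime_iff_not_dvd hℓ).mpr hℓM
  have hℓΘ' : ℓ ∣ Θ' := by
    rw [hΘ'] at hℓW
    exact hℓcop.dvd_of_dvd_mul_left hℓW
  obtain ⟨Θ'', rfl⟩ := hℓΘ'
  have hcopΘ'' : Nat.Coprime Θ'' M := Nat.Coprime.coprime_dvd_left (Dvd.intro_left ℓ rfl) hcopΘ'
  have hWeq : W = 1 + M * (ℓ * Θ'') := by omega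
  have hWq : W = q ^ (P * 2 * (n * n1)) := by
    rw [hW, hY, ← pow_mul, ← pow_mul, mul_assoc]
  have hW1z : (W : ℤ) ≡ 1 [ZMOD (M : ℤ)] := by
    rw [hWeq, Int.modEq_iff_dvd]
    exact ⟨-((ℓ : ℤ) * Θ''), by push_cast; ring⟩
  -- a common prime of `W + 1` and `M` is `2`
  have hk2 : ∀ k : ℕ, k.Prime → k ∣ W + 1 → k ∣ M → k = 2 := by
    intro k hk hkW hkM
    have h1 : k ∣ W - 1 := by
      rw [hΘ']
      exact Dvd.dvd.mul_right hkM _
    have h2 : k ∣ 2 := by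
      have := Nat.dvd_sub hkW h1
      rwa [show W + 1 - (W - 1) = 2 by omega] at this
    exact (Nat.prime_dvd_prime_iff_eq hk Nat.prime_two).mp h2
  by_cases h2M : 2 ∣ M
  · -- `M` even
    have hstar : s41cStar M = 2 * M := if_pos h2M
    have hZodd : ¬ 2 ∣ Y ^ (n * n1) := fun h =>
      hrY 2 Nat.prime_two h2M (Nat.prime_two.dvd_of_dvd_pow h)
    have hW4 : W % 4 = 1 := by
      have := s41car_sq_mod_four hZodd
      rwa [← pow_mul, mul_comm, pow_mul] at this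
    obtain ⟨u, hu⟩ : ∃ u, W + 1 = 2 * u := ⟨(W + 1) / 2, by omega⟩
    have hcopu : Nat.Coprime u M := by
      refine Nat.coprime_of_dvd fun k hk hku hkM => ?_
      have hk2' := hk2 k hk (hu ▸ Dvd.dvd.mul_left hku 2) hkM
      subst hk2'
      omega
    rw [hstar]
    refine s41car_final (c := 2) (Θ := Θ'' * u) rfl hM0 hWq hW1z ?_
      (Nat.Coprime.mul_left hcopΘ'' hcopu) s
    have h1 : W ^ 2 = 1 + (W - 1) * (W + 1) := by
      have := Nat.sq_sub_sq W 1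
      rw [one_pow] at this
      have h1le : 1 ≤ W ^ 2 := Nat.one_le_pow _ _ (by omega)
      rw [mul_comm] at this
      omega
    rw [h1, hΘ', hu]
    ring
  · -- `M` odd
    have hstar : s41cStar M = M := if_neg h2M
    have hcopW : Nat.Coprime (W + 1) M := by
      refine Nat.coprime_of_dvd fun k hk hkW hkM => ?_
      have hk2' := hk2 k hk hkW hkM
      subst hk2'
      exact h2M hkM
    rw [hstar]
    refine s41car_final (c := 1) (Θ := Θ'' * (W + 1)) (one_mul M).symm hM0 hWq hW1z ?_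
      (Nat.Coprime.mul_left hcopΘ'' hcopW) s
    have h1 : W ^ 2 = 1 + (W - 1) * (W + 1) := by
      have := Nat.sq_sub_sq W 1
      rw [one_pow] at this
      have h1le : 1 ≤ W ^ 2 := Nat.one_le_pow _ _ (by omega)
      rw [mul_comm] at this
      omega
    rw [h1, hΘ']
    ring

end Fermat.Agent.S41
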