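/-
S41 / package CSP, row 570 (helper22): the Dirichlet selection `s41c_dirichlet`.

Choice of the residue class: `ℓ ≡ b₁ mod a₁` and `ℓ ≡ -1 mod M₂`, `M₂ = 4M` (`M` even) or `M`
(`M` odd).  `-1` is a unit modulo everything, `-1 ≡ 3 mod 4`, and for an odd prime `r ∣ M`:
`r ∣ ℓ + 1` and `r ∣ ℓ - 1` would give `r ∣ 2`.
-/
import Fermat.Agent.S41.CSP.Defs

set_option autoImplicit false

namespace Fermat.Agent.S41

/-- the auxiliary modulus: `4 M` if `M` is even, `M` otherwise. -/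
private def s41cdirM2 (M : ℕ) : ℕ := if 2 ∣ M then 4 * M else M

private theorem s41cdir_M2_pos {M : ℕ} (hM : 0 < M) : 0 < s41cdirM2 M := by
  unfold s41cdirM2
  split_ifs <;> omega

private theorem s41cdir_dvd_M2 (M : ℕ) : M ∣ s41cdirM2 M := by
  unfold s41cdirM2
  split_ifs
  · exact Dvd.intro_left 4 rfl
  · exact dvd_rfl

private theorem s41cdir_four_dvd_M2 {M : ℕ} (h : 2 ∣ M) : 4 ∣ s41cdirM2 M := by
  unfold s41cdirM2
  rw [if_pos h]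
  exact Dvd.intro _ rfl

private theorem s41cdir_coprime_M2 {M : ℕ} {a₁ : ℤ} (haM : IsCoprime a₁ (M : ℤ)) :
    IsCoprime a₁ ((s41cdirM2 M : ℕ) : ℤ) := by
  unfold s41cdirM2
  split_ifs with h
  · have h2 : IsCoprime a₁ (2 : ℤ) := by
      obtain ⟨k, hk⟩ := h
      have : IsCoprime a₁ ((2 : ℤ) * (k : ℤ)) := by
        have := haM
        rw [hk] at this
        push_cast at this
        exact this
      exact this.of_mul_right_left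
    have h4 : IsCoprime a₁ (4 : ℤ) := by
      have : IsCoprime a₁ ((2 : ℤ) * 2) := h2.mul_right h2
      norm_num at this
      exact this
    have : IsCoprime a₁ ((4 : ℤ) * (M : ℤ)) := h4.mul_right haM
    push_cast
    exact this
  · exact haM

/-- (DIR) Dirichlet selection. -/
theorem s41c_dirichlet {M : ℕ} (hM : 0 < M) (a₁ b₁ : ℤ) (ha : a₁ ≠ 0) (hab : IsCoprime a₁ b₁)
    (haM : IsCoprime a₁ (M : ℤ)) (bound : ℕ) :
    ∃ (σ : ℤ) (ℓ : ℕ), ℓ.Prime ∧ bound < ℓ ∧ b₁ + σ * a₁ = ℓ ∧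
      (∀ r : ℕ, r.Prime → r ∣ M → r ≠ 2 → ¬ r ∣ ℓ - 1) ∧ (2 ∣ M → ℓ % 4 = 3) := by
  set M2 : ℕ := s41cdirM2 M with hM2
  have hM2pos : 0 < M2 := s41cdir_M2_pos hM
  have hcop : IsCoprime a₁ (M2 : ℤ) := s41cdir_coprime_M2 haM
  obtain ⟨u, v, huv⟩ := hcop
  -- the class `c`: `≡ b₁ mod a₁`, `≡ -1 mod M2`
  set c : ℤ := b₁ * (v * M2) - u * a₁ with hc
  have hc1 : c = b₁ + a₁ * (-(u * b₁) - u) := by
    have : v * (M2 : ℤ) = 1 - u * a₁ := by linarith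
    rw [hc, this]; ring
  have hc2 : c = -1 + (M2 : ℤ) * (b₁ * v + v) := by
    have : u * a₁ = 1 - v * (M2 : ℤ) := by linarith
    rw [hc, this]; ring
  set Q : ℕ := a₁.natAbs * M2 with hQ
  have hQ0 : Q ≠ 0 := Nat.mul_ne_zero (Int.natAbs_ne_zero.mpr ha) hM2pos.ne'
  have hcQ : IsCoprime c ((Q : ℕ) : ℤ) := by
    have h1 : IsCoprime c a₁ := by
      rw [hc1]
      exact (hab.symm).add_mul_left_left _
    have h2 : IsCoprime c (M2 : ℤ) := by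
      rw [hc2]
      have : IsCoprime (-1 : ℤ) (M2 : ℤ) := (isCoprime_one_left).neg_left
      exact this.add_mul_left_left _
    have h1' : IsCoprime c |a₁| := by
      rcases abs_choice a₁ with h | h <;> rw [h]
      · exact h1
      · exact h1.neg_right
    rw [hQ]
    push_cast
    exact h1'.mul_right h2
  obtain ⟨ℓ, hℓb, hℓp, hℓc⟩ := Nat.forall_exists_prime_gt_and_zmodEq bound hQ0 hcQ
  -- `Q ∣ ℓ - c`
  have hdvd : ((Q : ℕ) : ℤ) ∣ (ℓ : ℤ) - c := (Int.modEq_iff_dvd.mp hℓc.symm)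
  have ha1Q : a₁ ∣ ((Q : ℕ) : ℤ) := by
    rw [hQ]; push_cast
    exact Dvd.dvd.mul_right ((dvd_abs a₁ a₁).mpr dvd_rfl) _
  have hM2Q : ((M2 : ℕ) : ℤ) ∣ ((Q : ℕ) : ℤ) := by
    rw [hQ]; push_cast
    exact Dvd.intro_left _ rfl
  -- σ
  have h3 : a₁ ∣ (ℓ : ℤ) - b₁ := by
    have h4 : a₁ ∣ (ℓ : ℤ) - c := ha1Q.trans hdvd
    have : (ℓ : ℤ) - b₁ = ((ℓ : ℤ) - c) + a₁ * (-(u * b₁) - u) := by rw [hc1]; ring
    rw [this]
    exact dvd_add h4 (Dvd.intro _ rfl)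
  obtain ⟨σ, hσ⟩ := h3
  -- `M2 ∣ ℓ + 1`
  have h5 : ((M2 : ℕ) : ℤ) ∣ (ℓ : ℤ) + 1 := by
    have h6 : ((M2 : ℕ) : ℤ) ∣ (ℓ : ℤ) - c := hM2Q.trans hdvd
    have : (ℓ : ℤ) + 1 = ((ℓ : ℤ) - c) + (M2 : ℤ) * (b₁ * v + v) := by rw [hc2]; ring
    rw [this]
    exact dvd_add h6 (Dvd.intro _ rfl)
  have h5' : M2 ∣ ℓ + 1 := by
    have : ((M2 : ℕ) : ℤ) ∣ ((ℓ + 1 : ℕ) : ℤ) := by push_cast; exact h5
    exact Int.natCast_dvd_natCast.mp this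
  refine ⟨σ, ℓ, hℓp, hℓb, ?_, ?_, ?_⟩
  · linarith [hσ, mul_comm a₁ σ]
  · intro r hr hrM hr2 hrl
    have hrM2 : r ∣ M2 := hrM.trans (s41cdir_dvd_M2 M)
    have h7 : r ∣ ℓ + 1 := hrM2.trans h5'
    have hℓ2 : 2 ≤ ℓ := hℓp.two_le
    have h8 : r ∣ (ℓ + 1) - (ℓ - 1) := Nat.dvd_sub h7 hrl
    have h9 : (ℓ + 1) - (ℓ - 1) = 2 := by omega
    rw [h9] at h8
    have : r ≤ 2 := Nat.le_of_dvd (by norm_num) h8
    have : 2 ≤ r := hr.two_le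
    omega
  · intro h2
    have h4 : 4 ∣ ℓ + 1 := (s41cdir_four_dvd_M2 h2).trans h5'
    omega

end Fermat.Agent.S41
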