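import Mathlib
import Fermat.Agent.S41.CSP.Defs

/-!
# S41, package CSP, row S41-CSP-GEN (helper11): `SL₂(ℤ[1/q])` is generated by elementary matrices
(prefix `s41cg_`)

* `s41c_G_induction` : induction principle (left multiplication by `u s`, `l s`, `s ∈ ℤ[1/q]`);
* `s41c_hom_zero_of_u_one` : an additive function on `SL₂(ℤ[1/q])` killing `u 1` is zero.
-/

set_option autoImplicit false

namespace Fermat.Agent.S41

open Matrix
open scoped MatrixGroups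

/-! ### entries and basic identities -/

theorem s41cg_U_mul_apply (s : ℚ) (x : SL(2, ℚ)) :
    (s41cU s * x) 0 0 = x 0 0 + s * x 1 0 ∧ (s41cU s * x) 0 1 = x 0 1 + s * x 1 1 ∧
      (s41cU s * x) 1 0 = x 1 0 ∧ (s41cU s * x) 1 1 = x 1 1 := by
  simp only [Matrix.SpecialLinearGroup.coe_mul, Matrix.mul_apply, Fin.sum_univ_two]
  simp [s41cU]

theorem s41cg_L_mul_apply (s : ℚ) (x : SL(2, ℚ)) :
    (s41cL s * x) 0 0 = x 0 0 ∧ (s41cL s * x) 0 1 = x 0 1 ∧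
      (s41cL s * x) 1 0 = s * x 0 0 + x 1 0 ∧ (s41cL s * x) 1 1 = s * x 0 1 + x 1 1 := by
  simp only [Matrix.SpecialLinearGroup.coe_mul, Matrix.mul_apply, Fin.sum_univ_two]
  simp [s41cL]

theorem s41cg_ext {x y : SL(2, ℚ)} (h00 : x 0 0 = y 0 0) (h01 : x 0 1 = y 0 1)
    (h10 : x 1 0 = y 1 0) (h11 : x 1 1 = y 1 1) : x = y := by
  apply Subtype.ext
  ext i j
  fin_cases i <;> fin_cases j
  · exact h00
  · exact h01
  · exact h10
  · exact h11

theorem s41cg_U_add (s t : ℚ) : s41cU (s + t) = s41cU s * s41cU t := by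
  obtain ⟨h1, h2, h3, h4⟩ := s41cg_U_mul_apply s (s41cU t)
  apply s41cg_ext
  · rw [h1]; simp [s41cU]
  · rw [h2]; simp [s41cU, add_comm]
  · rw [h3]; simp [s41cU]
  · rw [h4]; simp [s41cU]

theorem s41cg_U_zero : s41cU 0 = 1 := by
  apply s41cg_ext <;> simp [s41cU]

theorem s41cg_U_neg_mul (s : ℚ) : s41cU (-s) * s41cU s = 1 := by
  rw [← s41cg_U_add, neg_add_cancel, s41cg_U_zero]

theorem s41cg_L_add (s t : ℚ) : s41cL (s + t) = s41cL s * s41cL t := by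
  obtain ⟨h1, h2, h3, h4⟩ := s41cg_L_mul_apply s (s41cL t)
  apply s41cg_ext
  · rw [h1]; simp [s41cL]
  · rw [h2]; simp [s41cL]
  · rw [h3]; simp [s41cL]
  · rw [h4]; simp [s41cL]

theorem s41cg_L_zero : s41cL 0 = 1 := by
  apply s41cg_ext <;> simp [s41cL]

theorem s41cg_L_neg_mul (s : ℚ) : s41cL (-s) * s41cL s = 1 := by
  rw [← s41cg_L_add, neg_add_cancel, s41cg_L_zero]

theorem s41cg_U_mem {q : ℕ} {s : ℚ} (hs : s ∈ s41cA q) : s41cU s ∈ s41cG q := by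
  intro i j
  fin_cases i <;> fin_cases j
  · show (1 : ℚ) ∈ s41cA q
    exact Subring.one_mem _
  · show s ∈ s41cA q
    exact hs
  · show (0 : ℚ) ∈ s41cA q
    exact Subring.zero_mem _
  · show (1 : ℚ) ∈ s41cA q
    exact Subring.one_mem _

theorem s41cg_L_mem {q : ℕ} {s : ℚ} (hs : s ∈ s41cA q) : s41cL s ∈ s41cG q := by
  intro i j
  fin_cases i <;> fin_cases j
  · show (1 : ℚ) ∈ s41cA q
    exact Subring.one_mem _
  · show (0 : ℚ) ∈ s41cA q
    exact Subring.zero_mem _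
  · show s ∈ s41cA q
    exact hs
  · show (1 : ℚ) ∈ s41cA q
    exact Subring.one_mem _

/-- the Weyl element `w = u(1) l(-1) u(1) = [0, 1; -1, 0]` -/
def s41cgW : SL(2, ℚ) := s41cU 1 * s41cL (-1) * s41cU 1

/-- `w⁻¹ = u(-1) l(1) u(-1)` -/
def s41cgWinv : SL(2, ℚ) := s41cU (-1) * s41cL 1 * s41cU (-1)

theorem s41cgWinv_mul_W : s41cgWinv * s41cgW = 1 := by
  have h1 : s41cU (-1) * s41cU 1 = 1 := s41cg_U_neg_mul 1
  have h2 : s41cL 1 * s41cL (-1) = 1 := by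
    have := s41cg_L_neg_mul (-1)
    rwa [neg_neg] at this
  calc s41cgWinv * s41cgW
      = s41cU (-1) * (s41cL 1 * ((s41cU (-1) * s41cU 1) * s41cL (-1))) * s41cU 1 := by
        simp only [s41cgWinv, s41cgW, mul_assoc]
    _ = 1 := by rw [h1, one_mul, h2, mul_one, h1]

theorem s41cgW_mul_apply (x : SL(2, ℚ)) :
    (s41cgW * x) 0 0 = x 1 0 ∧ (s41cgW * x) 0 1 = x 1 1 ∧
      (s41cgW * x) 1 0 = -x 0 0 ∧ (s41cgW * x) 1 1 = -x 0 1 := by
  simp only [s41cgW, mul_assoc]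
  obtain ⟨a1, a2, a3, a4⟩ := s41cg_U_mul_apply 1 x
  obtain ⟨b1, b2, b3, b4⟩ := s41cg_L_mul_apply (-1) (s41cU 1 * x)
  obtain ⟨c1, c2, c3, c4⟩ := s41cg_U_mul_apply 1 (s41cL (-1) * (s41cU 1 * x))
  rw [c1, c2, c3, c4, b1, b2, b3, b4, a1, a2, a3, a4]
  refine ⟨by ring, by ring, by ring, by ring⟩

/-! ### `q ^ z ∈ ℤ[1/q]` -/

theorem s41cg_zpow_mem {q : ℕ} (hq : q ≠ 0) (z : ℤ) : (q : ℚ) ^ z ∈ s41cA q := by
  rcases z with k | k
  · rw [Int.ofNat_eq_natCast, zpow_natCast]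
    exact Subring.pow_mem _ (s41cA_nat q q) k
  · rw [zpow_negSucc]
    exact s41cA_inv_pow hq (k + 1)

/-! ### the submonoid of products of elementary matrices (relative to `P`) -/

section Induction

variable {q : ℕ} (P : SL(2, ℚ) → Prop)

/-- elements `x ∈ G` such that `P y → P (x * y)` for all `y ∈ G` -/
def s41cgE (q : ℕ) (P : SL(2, ℚ) → Prop) : Submonoid SL(2, ℚ) where
  carrier := {x | x ∈ s41cG q ∧ ∀ y ∈ s41cG q, P y → P (x * y)}
  one_mem' := ⟨Subgroup.one_mem _, fun y _ hy => by rwa [one_mul]⟩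
  mul_mem' := by
    rintro x₁ x₂ ⟨h1, h1'⟩ ⟨h2, h2'⟩
    refine ⟨Subgroup.mul_mem _ h1 h2, fun y hy hPy => ?_⟩
    rw [mul_assoc]
    exact h1' _ (Subgroup.mul_mem _ h2 hy) (h2' y hy hPy)

variable {P}

theorem s41cgE_U (hu : ∀ s ∈ s41cA q, ∀ x ∈ s41cG q, P x → P (s41cU s * x)) {s : ℚ}
    (hs : s ∈ s41cA q) : s41cU s ∈ s41cgE q P :=
  ⟨s41cg_U_mem hs, fun y hy hPy => hu s hs y hy hPy⟩

theorem s41cgE_L (hl : ∀ s ∈ s41cA q, ∀ x ∈ s41cG q, P x → P (s41cL s * x)) {s : ℚ}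
    (hs : s ∈ s41cA q) : s41cL s ∈ s41cgE q P :=
  ⟨s41cg_L_mem hs, fun y hy hPy => hl s hs y hy hPy⟩

/-- the case `x 1 0 = 0`: `x = u(b a) · h(a)`, `h(a) = w(a) w(1)⁻¹` -/
theorem s41cg_base_eq (x : SL(2, ℚ)) (hc : x 1 0 = 0) :
    x = s41cU (x 0 1 * x 0 0) * (s41cU (x 0 0) * (s41cL (-(x 1 1)) * (s41cU (x 0 0) *
      (s41cU (-1) * (s41cL 1 * s41cU (-1)))))) := by
  have hdet : x 0 0 * x 1 1 = 1 := by
    have h := x.det_coe
    rw [Matrix.det_fin_two, hc, mul_zero, sub_zero] at h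
    exact h
  apply s41cg_ext
  all_goals
    simp only [Matrix.SpecialLinearGroup.coe_mul, Matrix.mul_apply, Fin.sum_univ_two]
    simp [s41cU, s41cL]
  · linear_combination (x 0 0 + x 0 1 * x 0 0) * hdet
  · linear_combination (-(1 + x 0 1)) * hdet
  · linear_combination hc + hdet

theorem s41cgE_Winv (hu : ∀ s ∈ s41cA q, ∀ x ∈ s41cG q, P x → P (s41cU s * x))
    (hl : ∀ s ∈ s41cA q, ∀ x ∈ s41cG q, P x → P (s41cL s * x)) : s41cgWinv ∈ s41cgE q P :=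
  mul_mem (mul_mem (s41cgE_U hu (neg_mem (one_mem _))) (s41cgE_L hl (one_mem _)))
    (s41cgE_U hu (neg_mem (one_mem _)))

theorem s41cgW_mem (q : ℕ) : s41cgW ∈ s41cG q :=
  mul_mem (mul_mem (s41cg_U_mem (one_mem _)) (s41cg_L_mem (neg_mem (one_mem _))))
    (s41cg_U_mem (one_mem _))

/-- the key induction: `x 1 0 = ± n q^j` implies that `x` is a product of elementary matrices -/
theorem s41cg_mem_E (hq : q ≠ 0)
    (hu : ∀ s ∈ s41cA q, ∀ x ∈ s41cG q, P x → P (s41cU s * x))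
    (hl : ∀ s ∈ s41cA q, ∀ x ∈ s41cG q, P x → P (s41cL s * x)) (n : ℕ) :
    ∀ x : SL(2, ℚ), x ∈ s41cG q →
      (∃ j : ℤ, x 1 0 = n * (q : ℚ) ^ j ∨ x 1 0 = -(n * (q : ℚ) ^ j)) → x ∈ s41cgE q P := by
  have hq0 : (q : ℚ) ≠ 0 := Nat.cast_ne_zero.mpr hq
  induction n using Nat.strong_induction_on with
  | _ n ih =>
    intro x hx hc
    rcases Nat.eq_zero_or_pos n with rfl | hn
    · -- the base case
      have hc0 : x 1 0 = 0 := by
        obtain ⟨j, h | h⟩ := hc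
        · rw [h]; simp
        · rw [h]; simp
      rw [s41cg_base_eq x hc0]
      have ha := hx 0 0
      have hb := hx 0 1
      have hd := hx 1 1
      exact mul_mem (s41cgE_U hu (mul_mem hb ha)) (mul_mem (s41cgE_U hu ha)
        (mul_mem (s41cgE_L hl (neg_mem hd)) (mul_mem (s41cgE_U hu ha)
          (mul_mem (s41cgE_U hu (neg_mem (one_mem _)))
            (mul_mem (s41cgE_L hl (one_mem _)) (s41cgE_U hu (neg_mem (one_mem _))))))))
    · -- the division step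
      obtain ⟨j, hcj⟩ := hc
      obtain ⟨ε, hε, hcε⟩ : ∃ ε : ℚ, (ε = 1 ∨ ε = -1) ∧ x 1 0 = ε * (n * (q : ℚ) ^ j) := by
        rcases hcj with h | h
        · exact ⟨1, Or.inl rfl, by rw [h, one_mul]⟩
        · exact ⟨-1, Or.inr rfl, by rw [h]; ring⟩
      have hε2 : ε * ε = 1 := by rcases hε with rfl | rfl <;> norm_num
      have hεA : ε ∈ s41cA q := by
        rcases hε with rfl | rfl
        · exact one_mem _
        · exact neg_mem (one_mem _)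
      obtain ⟨k, m, ha⟩ := hx 0 0
      have hn0 : (n : ℤ) ≠ 0 := by exact_mod_cast hn.ne'
      have hnpos : (0 : ℤ) < n := by exact_mod_cast hn
      have hr0 : 0 ≤ m % (n : ℤ) := Int.emod_nonneg _ hn0
      have hrn : m % (n : ℤ) < n := Int.emod_lt_of_pos _ hnpos
      have hm : m % (n : ℤ) + n * (m / (n : ℤ)) = m := Int.emod_add_mul_ediv m n
      have ha' : x 0 0 = m * (q : ℚ) ^ (-(k : ℤ)) := by
        rw [_root_.zpow_neg, zpow_natCast, ← ha, mul_assoc, mul_inv_cancel₀ (pow_ne_zero k hq0), mul_one]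
      set t : ℤ := m / (n : ℤ) with ht
      set r : ℤ := m % (n : ℤ) with hr
      set s : ℚ := -(ε * t * (q : ℚ) ^ (-(k : ℤ) - j)) with hs
      have hsA : s ∈ s41cA q :=
        neg_mem (mul_mem (mul_mem hεA (s41cA_int q t)) (s41cg_zpow_mem hq _))
      have hy00 : (s41cU s * x) 0 0 = r * (q : ℚ) ^ (-(k : ℤ)) := by
        rw [(s41cg_U_mul_apply s x).1, ha', hcε, hs]
        have e1 : (q : ℚ) ^ (-(k : ℤ) - j) * (q : ℚ) ^ j = (q : ℚ) ^ (-(k : ℤ)) := by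
          rw [← zpow_add₀ hq0]
          congr 1
          ring
        have e2 : (m : ℚ) = r + n * t := by exact_mod_cast hm.symm
        rw [e2]
        calc (↑r + ↑n * ↑t) * (q : ℚ) ^ (-(k : ℤ)) +
              -(ε * ↑t * (q : ℚ) ^ (-(k : ℤ) - j)) * (ε * (↑n * (q : ℚ) ^ j))
            = (↑r + ↑n * ↑t) * (q : ℚ) ^ (-(k : ℤ)) -
              (ε * ε) * ↑t * ↑n * ((q : ℚ) ^ (-(k : ℤ) - j) * (q : ℚ) ^ j) := by ring
          _ = ↑r * (q : ℚ) ^ (-(k : ℤ)) := by rw [hε2, e1]; ring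
      have hyG : s41cU s * x ∈ s41cG q := mul_mem (s41cg_U_mem hsA) hx
      have hzG : s41cgW * (s41cU s * x) ∈ s41cG q := mul_mem (s41cgW_mem q) hyG
      have hrcast : ((r.toNat : ℕ) : ℚ) = (r : ℚ) := by
        have := Int.toNat_of_nonneg hr0
        exact_mod_cast this
      have hz10 : (s41cgW * (s41cU s * x)) 1 0 =
          -(((r.toNat : ℕ) : ℚ) * (q : ℚ) ^ (-(k : ℤ))) := by
        rw [(s41cgW_mul_apply _).2.2.1, hy00, hrcast]
      have hlt : r.toNat < n := by omega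
      have hzE := ih r.toNat hlt _ hzG ⟨-(k : ℤ), Or.inr hz10⟩
      have hx_eq : x = s41cU (-s) * (s41cgWinv * (s41cgW * (s41cU s * x))) := by
        rw [← mul_assoc s41cgWinv, s41cgWinv_mul_W, one_mul, ← mul_assoc, s41cg_U_neg_mul,
          one_mul]
      rw [hx_eq]
      exact mul_mem (s41cgE_U hu (neg_mem hsA)) (mul_mem (s41cgE_Winv hu hl) hzE)

end Induction

/-- (GEN-1) `SL₂(ℤ[1/q])` is generated by elementary matrices: induction principle. -/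
theorem s41c_G_induction {q : ℕ} (hq : q.Prime) (P : SL(2, ℚ) → Prop) (h1 : P 1)
    (hu : ∀ s ∈ s41cA q, ∀ x ∈ s41cG q, P x → P (s41cU s * x))
    (hl : ∀ s ∈ s41cA q, ∀ x ∈ s41cG q, P x → P (s41cL s * x)) :
    ∀ x ∈ s41cG q, P x := by
  intro x hx
  have hq0 : (q : ℚ) ≠ 0 := Nat.cast_ne_zero.mpr hq.ne_zero
  obtain ⟨k, m, hc⟩ := hx 1 0
  have hc' : x 1 0 = m * (q : ℚ) ^ (-(k : ℤ)) := by
    rw [_root_.zpow_neg, zpow_natCast, ← hc, mul_assoc, mul_inv_cancel₀ (pow_ne_zero k hq0), mul_one]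
  have hE : x ∈ s41cgE q P := by
    refine s41cg_mem_E hq.ne_zero hu hl m.natAbs x hx ⟨-(k : ℤ), ?_⟩
    rcases Int.natAbs_eq m with h | h
    · left
      rw [hc']
      congr 1
      have h2 : (m : ℚ) = ((m.natAbs : ℤ) : ℚ) := congrArg (fun z : ℤ => (z : ℚ)) h
      rw [h2, Int.cast_natCast]
    · right
      rw [hc', ← neg_mul]
      congr 1
      have h2 : (m : ℚ) = ((-(m.natAbs : ℤ) : ℤ) : ℚ) := congrArg (fun z : ℤ => (z : ℚ)) h
      rw [h2, Int.cast_neg, Int.cast_natCast]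
  have := hE.2 1 (one_mem _) h1
  rwa [mul_one] at this

/-! ### GEN-2 -/

theorem s41cg_H_mem {q : ℕ} {w : ℚ} (hw : w ≠ 0) (h1 : w ∈ s41cA q) (h2 : w⁻¹ ∈ s41cA q) :
    s41cH w hw ∈ s41cG q := by
  intro i j
  fin_cases i <;> fin_cases j
  · show w ∈ s41cA q
    exact h1
  · show (0 : ℚ) ∈ s41cA q
    exact Subring.zero_mem _
  · show (0 : ℚ) ∈ s41cA q
    exact Subring.zero_mem _
  · show w⁻¹ ∈ s41cA q
    exact h2

/-- `h(w) u(s) = u(w² s) h(w)` -/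
theorem s41cg_H_mul_U (w : ℚ) (hw : w ≠ 0) (s : ℚ) :
    s41cH w hw * s41cU s = s41cU (w * w * s) * s41cH w hw := by
  apply s41cg_ext
  all_goals
    simp only [Matrix.SpecialLinearGroup.coe_mul, Matrix.mul_apply, Fin.sum_univ_two]
    simp [s41cU, s41cH]
  field_simp

/-- `w u(t) = l(-t) w` -/
theorem s41cg_W_mul_U (t : ℚ) : s41cgW * s41cU t = s41cL (-t) * s41cgW := by
  obtain ⟨a1, a2, a3, a4⟩ := s41cgW_mul_apply (s41cU t)
  obtain ⟨b1, b2, b3, b4⟩ := s41cg_L_mul_apply (-t) s41cgW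
  obtain ⟨c1, c2, c3, c4⟩ := s41cgW_mul_apply 1
  rw [mul_one] at c1 c2 c3 c4
  apply s41cg_ext
  · rw [a1, b1, c1]; simp [s41cU]
  · rw [a2, b2, c2]; simp [s41cU]
  · rw [a3, b3, c1, c3]; simp [s41cU]
  · rw [a4, b4, c2, c4]; simp [s41cU]

/-- (GEN-2) `SL₂(ℤ[1/q])^ab` is cyclic on the class of `u(1)`. -/
theorem s41c_hom_zero_of_u_one {q : ℕ} (hq : q.Prime) {𝔄 : Type*} [AddCommGroup 𝔄]
    (E : SL(2, ℚ) → 𝔄) (hmul : ∀ x ∈ s41cG q, ∀ y ∈ s41cG q, E (x * y) = E x + E y)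
    (h1 : E (s41cU 1) = 0) : ∀ x ∈ s41cG q, E x = 0 := by
  have hq0 : (q : ℚ) ≠ 0 := Nat.cast_ne_zero.mpr hq.ne_zero
  -- `E 1 = 0`
  have hE1 : E 1 = 0 := by
    have h := hmul 1 (one_mem _) 1 (one_mem _)
    rw [mul_one] at h
    exact left_eq_add.mp h
  -- natural numbers
  have hnat : ∀ n : ℕ, E (s41cU (n : ℚ)) = 0 := by
    intro n
    induction n with
    | zero => rw [Nat.cast_zero, s41cg_U_zero, hE1]
    | succ n ih =>
      rw [Nat.cast_succ, s41cg_U_add, hmul _ (s41cg_U_mem (s41cA_nat q n)) _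
        (s41cg_U_mem (one_mem _)), ih, h1, add_zero]
  -- integers
  have hint : ∀ m : ℤ, E (s41cU (m : ℚ)) = 0 := by
    intro m
    rcases Int.eq_nat_or_neg m with ⟨n, rfl | rfl⟩
    · rw [Int.cast_natCast]
      exact hnat n
    · have h := hmul _ (s41cg_U_mem (neg_mem (s41cA_nat q n))) _ (s41cg_U_mem (s41cA_nat q n))
      rw [s41cg_U_neg_mul, hE1, hnat n, add_zero] at h
      rw [Int.cast_neg, Int.cast_natCast]
      exact h.symm
  -- all upper unipotents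
  have hU : ∀ s ∈ s41cA q, E (s41cU s) = 0 := by
    intro s hs
    obtain ⟨k, m, hsm⟩ := hs
    have hw : (q : ℚ) ^ k ≠ 0 := pow_ne_zero k hq0
    have hwA : (q : ℚ) ^ k ∈ s41cA q := Subring.pow_mem _ (s41cA_nat q q) k
    have hH := s41cg_H_mem hw hwA (s41cA_inv_pow hq.ne_zero k)
    have hs' : s ∈ s41cA q := ⟨k, m, hsm⟩
    have e : (q : ℚ) ^ k * (q : ℚ) ^ k * s = ((m * (q : ℤ) ^ k : ℤ) : ℚ) := by
      push_cast
      rw [← hsm]
      ring
    have h2 := congrArg E (s41cg_H_mul_U ((q : ℚ) ^ k) hw s)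
    rw [hmul _ hH _ (s41cg_U_mem hs'), e,
      hmul _ (s41cg_U_mem (s41cA_int q _)) _ hH, hint, zero_add] at h2
    exact add_left_cancel (a := E (s41cH ((q : ℚ) ^ k) hw)) (by rw [h2, add_zero])
  -- all lower unipotents
  have hL : ∀ s ∈ s41cA q, E (s41cL s) = 0 := by
    intro s hs
    have h2 := congrArg E (s41cg_W_mul_U (-s))
    rw [neg_neg, hmul _ (s41cgW_mem q) _ (s41cg_U_mem (neg_mem hs)), hU _ (neg_mem hs), add_zero,
      hmul _ (s41cg_L_mem hs) _ (s41cgW_mem q)] at h2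
    exact add_right_cancel (b := E s41cgW) (by rw [← h2, zero_add])
  refine s41c_G_induction hq (fun x => E x = 0) hE1 ?_ ?_
  · intro s hs x hx hPx
    show E (s41cU s * x) = 0
    rw [hmul _ (s41cg_U_mem hs) _ hx, hU s hs, hPx, add_zero]
  · intro s hs x hx hPx
    show E (s41cL s * x) = 0
    rw [hmul _ (s41cg_L_mem hs) _ hx, hL s hs, hPx, add_zero]

end Fermat.Agent.S41
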