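import Fermat.Agent.S41.CSP.Core
import Fermat.Agent.S41.CSP.Gen
import Fermat.Agent.S41.CSP.Arith
import Fermat.Agent.S41.CSP.Dir

/-!
# S41, package CSP: THEOREM C (centrality)

`s41c_central`: for an admissible level `M`, a function `φ : SL(2, ℚ) → 𝔄` which is additive on
`Γ_A(M)` (`A = ℤ[1/q]`) and kills its trace-2 elements satisfies `φ (g x g⁻¹) = φ x` for all
`g ∈ SL₂(A)` and `x ∈ Γ_A(M*)`.

Proof: invariance under `l(t)` (`S41cHyp.l_inv`: Step 1 `x ↦ x u(s')` makes the upper right entry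
`M* ℓ / q ^ j` with `ℓ` a Dirichlet prime; the arithmetic lemma produces `w = q ^ e` for the key
step of `Core.lean`), invariance under `u(t)` by conjugation with the Weyl element, general `g`
by induction on the elementary generators; the level `M = 1` is the cyclicity of `SL₂(A)^ab`.
-/

set_option autoImplicit false
namespace Fermat.Agent.S41
open Matrix
open scoped MatrixGroups

/-- every element of `ℤ[1/q]` is congruent to an integer mod `M` (`M` prime to `q`). -/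
theorem s41cz_exists_int {q M : ℕ} (hcop : Nat.Coprime M q) {y : ℚ} (hy : y ∈ s41cA q) :
    ∃ s : ℤ, s41cDvd q M (y - s) := by
  obtain ⟨k, m, hk⟩ := hy
  have hc : IsCoprime ((q : ℤ) ^ k) (M : ℤ) :=
    IsCoprime.pow_left (Nat.isCoprime_iff_coprime.mpr hcop.symm)
  obtain ⟨u, v, huv⟩ := hc
  refine ⟨m * u, y * v, Subring.mul_mem _ ⟨k, m, hk⟩ (s41cA_int q v), ?_⟩
  have h1 : (u : ℚ) * (q : ℚ) ^ k + v * M = 1 := by exact_mod_cast huv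
  push_cast
  rw [← hk]
  linear_combination (-y) * h1

/-- a nonzero element of `ℤ[1/q]` is a unit times an integer prime to `q`. -/
theorem s41cz_unit_decomp {q : ℕ} (hq : q.Prime) {a : ℚ} (ha : a ∈ s41cA q) (ha0 : a ≠ 0) :
    ∃ (a₁ : ℤ) (α i : ℕ), a * (q : ℚ) ^ i = (q : ℚ) ^ α * a₁ ∧ ¬ (q : ℤ) ∣ a₁ ∧ a₁ ≠ 0 := by
  obtain ⟨i, n, hn⟩ := ha
  have hq0 : (q : ℚ) ≠ 0 := Nat.cast_ne_zero.mpr hq.ne_zero
  have hn0 : n ≠ 0 := by
    rintro rfl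
    have : a * (q : ℚ) ^ i = 0 := by simpa using hn
    rcases mul_eq_zero.mp this with h | h
    · exact ha0 h
    · exact pow_ne_zero _ hq0 h
  have hfin : FiniteMultiplicity (q : ℤ) n := by
    rw [Int.finiteMultiplicity_iff]
    refine ⟨?_, hn0⟩
    simpa using hq.one_lt.ne'
  obtain ⟨a₁, ha₁, hnd⟩ := hfin.exists_eq_pow_mul_and_not_dvd
  have ha₁0 : a₁ ≠ 0 := by
    rintro rfl
    exact hn0 (by simpa using ha₁)
  generalize multiplicity (q : ℤ) n = α at ha₁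
  refine ⟨a₁, α, i, ?_, hnd, ha₁0⟩
  rw [hn, ha₁]; push_cast; ring

/-- `a₁ X + B Y = q ^ K`, `q ∤ a₁` ⟹ `a₁ ⊥ B`. -/
theorem s41cz_coprime_of_eq {q : ℕ} (hq : q.Prime) {a₁ B X Y : ℤ} {K : ℕ}
    (hnd : ¬ (q : ℤ) ∣ a₁) (h : a₁ * X + B * Y = (q : ℤ) ^ K) : IsCoprime a₁ B := by
  have hp : Prime (q : ℤ) := Nat.prime_iff_prime_int.mp hq
  have h1 : IsCoprime a₁ ((q : ℤ) ^ K) :=
    (IsCoprime.pow_left ((Prime.coprime_iff_not_dvd hp).mpr hnd)).symm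
  obtain ⟨u, v, huv⟩ := h1
  exact ⟨u + v * X, v * Y, by rw [← h] at huv; linear_combination huv⟩

theorem s41cStar_eq (M : ℕ) : ∃ m : ℕ, s41cStar M = M * m := by
  unfold s41cStar
  split_ifs
  · exact ⟨2, by ring⟩
  · exact ⟨1, by ring⟩

section phi

variable {q M : ℕ} {𝔄 : Type*} [AddCommGroup 𝔄] {φ : SL(2, ℚ) → 𝔄}

/-- invariance under `l(t)`. -/
theorem S41cHyp.l_inv (H : S41cHyp q M φ) (hq : q.Prime) (hM : S41cAdm q M) (hM1 : M ≠ 1)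
    {x : SL(2, ℚ)} (hx : x ∈ s41cGam q (s41cStar M)) {t : ℚ} (ht : t ∈ s41cA q) :
    φ (s41cL t * x * (s41cL t)⁻¹) = φ x := by
  obtain ⟨mst, hmst⟩ := s41cStar_eq M
  have hMdvd : M ∣ s41cStar M := ⟨mst, hmst⟩
  have hxM : x ∈ s41cGam q M := s41cGam_of_dvd hMdvd hx
  have hMadm := hM
  obtain ⟨hMpos, hMq, -⟩ := hM
  have hq0 : (q : ℚ) ≠ 0 := Nat.cast_ne_zero.mpr hq.ne_zero
  obtain ⟨hG, ⟨z00, hz00, h00⟩, ⟨b0, hb0, hb⟩, -, -⟩ := hx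
  -- `a ≠ 0`
  have ha0 : x 0 0 ≠ 0 := by
    intro h0
    rw [h0] at h00
    obtain ⟨k, n, hn⟩ := hz00
    -- `-1 = M* z00`, so `M* ∣ q^k`
    have h1 : ((s41cStar M : ℤ) * n : ℤ) = -((q : ℤ) ^ k) := by
      have : ((s41cStar M : ℚ) * n) = -((q : ℚ) ^ k) := by
        rw [← hn]; linear_combination (-(q : ℚ) ^ k) * h00
      exact_mod_cast this
    have h2 : (M : ℤ) ∣ (q : ℤ) ^ k := by
      have : (M : ℤ) ∣ (s41cStar M : ℤ) * n := Dvd.dvd.mul_right (by exact_mod_cast hMdvd) _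
      rw [h1] at this
      exact (dvd_neg.mp this)
    have h3 : IsCoprime (M : ℤ) ((q : ℤ) ^ k) :=
      IsCoprime.pow_right (Nat.isCoprime_iff_coprime.mpr hMq)
    have h4 : IsUnit (M : ℤ) := h3.isUnit_of_dvd h2
    have : (M : ℤ) = 1 := by
      rcases Int.isUnit_iff.mp h4 with h | h
      · exact h
      · have : (0 : ℤ) ≤ M := Int.natCast_nonneg M
        omega
    exact hM1 (by exact_mod_cast this)
  obtain ⟨a₁, α, i, haq, hnd, ha₁0⟩ := s41cz_unit_decomp hq (hG 0 0) ha0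
  obtain ⟨j, nb, hnb⟩ := hb0
  -- coprimality from the determinant
  have hcop : IsCoprime a₁ ((s41cStar M : ℤ) * nb) := by
    obtain ⟨k, nd, hd⟩ := hG 1 1
    obtain ⟨l, nc, hc⟩ := hG 1 0
    have hdet := s41c_det x
    refine s41cz_coprime_of_eq hq hnd (X := (q : ℤ) ^ α * nd * (q : ℤ) ^ (j + l))
      (Y := -(nc * (q : ℤ) ^ (i + k))) (K := i + j + k + l) ?_
    have : ((a₁ : ℚ) * ((q : ℚ) ^ α * nd * (q : ℚ) ^ (j + l))
        + ((s41cStar M : ℚ) * nb) * (-(nc * (q : ℚ) ^ (i + k)))) = (q : ℚ) ^ (i + j + k + l) := by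
      rw [← hd, ← hc, ← hnb]
      have e1 : (a₁ : ℚ) * (q : ℚ) ^ α = x 0 0 * (q : ℚ) ^ i := by rw [haq]; ring
      rw [hb] at hdet
      calc (a₁ : ℚ) * ((q : ℚ) ^ α * (x 1 1 * (q : ℚ) ^ k) * (q : ℚ) ^ (j + l))
            + ((s41cStar M : ℚ) * (b0 * (q : ℚ) ^ j)) * (-(x 1 0 * (q : ℚ) ^ l * (q : ℚ) ^ (i + k)))
          = ((a₁ : ℚ) * (q : ℚ) ^ α) * x 1 1 * (q : ℚ) ^ (j + k + l)
            - (s41cStar M : ℚ) * b0 * x 1 0 * (q : ℚ) ^ (i + j + k + l) := by ring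
        _ = (x 0 0 * x 1 1 - (s41cStar M : ℚ) * b0 * x 1 0) * (q : ℚ) ^ (i + j + k + l) := by
            rw [e1]; ring
        _ = (q : ℚ) ^ (i + j + k + l) := by rw [hdet, one_mul]
    exact_mod_cast this
  have hcop1 : IsCoprime a₁ nb := hcop.of_mul_right_right
  have hcop2 : IsCoprime a₁ (M : ℤ) :=
    IsCoprime.of_isCoprime_of_dvd_right hcop.of_mul_right_left (by exact_mod_cast hMdvd)
  -- Dirichlet
  obtain ⟨σ, ℓ, hℓ, hℓb, hσ, hodd, heven⟩ :=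
    s41c_dirichlet hMpos a₁ nb ha₁0 hcop1 hcop2 (max (max q M) 2)
  have hℓq : ℓ ≠ q := by
    have : q < ℓ := lt_of_le_of_lt (le_trans (le_max_left _ _) (le_max_left _ _)) hℓb
    omega
  have hℓ2 : ℓ ≠ 2 := by
    have : 2 < ℓ := lt_of_le_of_lt (le_max_right _ _) hℓb
    omega
  have hℓM : ¬ ℓ ∣ M := by
    have : M < ℓ := lt_of_le_of_lt (le_trans (le_max_right _ _) (le_max_left _ _)) hℓb
    exact Nat.not_dvd_of_pos_of_lt hMpos this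
  -- the integer `s`
  have htj : -t * ((q : ℚ) ^ j)⁻¹ ∈ s41cA q :=
    Subring.mul_mem _ (Subring.neg_mem _ ht) (s41cA_inv_pow hq.ne_zero j)
  obtain ⟨s, ρ0, hρ0, hs⟩ := s41cz_exists_int hMq htj
  -- the arithmetic lemma
  obtain ⟨e, he1, he2⟩ := s41c_arith hq hMadm hℓ hℓM hℓq hℓ2 hodd heven s
  obtain ⟨κ1, hκ1⟩ := (Int.modEq_iff_dvd.mp he1)
  obtain ⟨κ, hκ⟩ := (Int.modEq_iff_dvd.mp he2)
  have hκ1' : (1 : ℚ) - (q : ℚ) ^ e = (M : ℚ) * κ1 := by exact_mod_cast hκ1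
  have hκ' : (1 : ℚ) + ((s41cStar M : ℚ) * ℓ) * s - (q : ℚ) ^ (2 * e)
      = (M : ℚ) * ((s41cStar M : ℚ) * ℓ) * κ := by exact_mod_cast hκ
  have hmstq : (s41cStar M : ℚ) = (M : ℚ) * mst := by exact_mod_cast hmst
  -- `w = q ^ e`
  have hw0 : (q : ℚ) ^ e ≠ 0 := pow_ne_zero _ hq0
  have hw : (q : ℚ) ^ e ∈ s41cA q := Subring.pow_mem _ (s41cA_nat q q) e
  have hw' : ((q : ℚ) ^ e)⁻¹ ∈ s41cA q := s41cA_inv_pow hq.ne_zero e
  have hw1 : s41cDvd q M ((q : ℚ) ^ e - 1) :=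
    ⟨-(κ1 : ℚ), Subring.neg_mem _ (s41cA_int q κ1), by linear_combination (-1 : ℚ) * hκ1'⟩
  -- Step 1
  have hQ0 : (q : ℚ) ^ j ≠ 0 := pow_ne_zero _ hq0
  have hα0 : (q : ℚ) ^ α ≠ 0 := pow_ne_zero _ hq0
  have hs0 : (σ : ℚ) * (q : ℚ) ^ i * ((q : ℚ) ^ α)⁻¹ * ((q : ℚ) ^ j)⁻¹ ∈ s41cA q :=
    Subring.mul_mem _ (Subring.mul_mem _ (Subring.mul_mem _ (s41cA_int q σ)
      (Subring.pow_mem _ (s41cA_nat q q) i)) (s41cA_inv_pow hq.ne_zero α))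
      (s41cA_inv_pow hq.ne_zero j)
  set s0 : ℚ := (σ : ℚ) * (q : ℚ) ^ i * ((q : ℚ) ^ α)⁻¹ * ((q : ℚ) ^ j)⁻¹ with hs0def
  have hs' : s41cDvd q M ((s41cStar M : ℚ) * s0) :=
    ⟨(mst : ℚ) * s0, Subring.mul_mem _ (s41cA_nat q mst) hs0, by rw [hmstq]; ring⟩
  have hx'' : x * s41cU ((s41cStar M : ℚ) * s0) ∈ s41cGam q M :=
    s41cGam_mul hxM (s41cU_mem_Gam hs')
  have h00'' : (x * s41cU ((s41cStar M : ℚ) * s0)) 0 0 = x 0 0 := by
    simp only [s41c_mul_apply, s41cU_00, s41cU_10]; ring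
  have hσq : (nb : ℚ) + σ * a₁ = ℓ := by exact_mod_cast hσ
  have h01'' : (x * s41cU ((s41cStar M : ℚ) * s0)) 0 1 * (q : ℚ) ^ j = (s41cStar M : ℚ) * ℓ := by
    simp only [s41c_mul_apply, s41cU_01, s41cU_11]
    have e1 : (q : ℚ) ^ α * ((q : ℚ) ^ α)⁻¹ = 1 := mul_inv_cancel₀ hα0
    have e2 : (q : ℚ) ^ j * ((q : ℚ) ^ j)⁻¹ = 1 := mul_inv_cancel₀ hQ0
    rw [hb, hs0def]
    linear_combination ((s41cStar M : ℚ) * σ * ((q : ℚ) ^ α)⁻¹ * ((q : ℚ) ^ j)⁻¹ * (q : ℚ) ^ j) * haq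
      + ((s41cStar M : ℚ) * σ * a₁) * e1 * ((q : ℚ) ^ j * ((q : ℚ) ^ j)⁻¹)
      + ((s41cStar M : ℚ) * σ * a₁) * e2
      + (s41cStar M : ℚ) * hnb + (s41cStar M : ℚ) * hσq
  have hσ' : (q : ℚ) ^ j * (-(s : ℚ) * mst * z00 + ρ0 + x 0 0 * κ) ∈ s41cA q :=
    Subring.mul_mem _ (Subring.pow_mem _ (s41cA_nat q q) j)
      (Subring.add_mem _ (Subring.add_mem _ (Subring.mul_mem _ (Subring.mul_mem _
        (Subring.neg_mem _ (s41cA_int q s)) (s41cA_nat q mst)) hz00) hρ0)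
        (Subring.mul_mem _ (hG 0 0) (s41cA_int q κ)))
  have ht' : t = -((q : ℚ) ^ j) * (s + (M : ℚ) * ρ0) := by
    have e2 : (q : ℚ) ^ j * ((q : ℚ) ^ j)⁻¹ = 1 := mul_inv_cancel₀ hQ0
    linear_combination (-((q : ℚ) ^ j)) * hs + (-t) * e2
  refine H.step_one hxM ht hs' (H.key hx'' ht hw0 hw hw' hw1 hσ' ?_)
  rw [h00'']
  set B' : ℚ := (x * s41cU ((s41cStar M : ℚ) * s0)) 0 1 with hB'
  rw [ht']
  linear_combination ((s + (M : ℚ) * ρ0) - (M : ℚ) * (-(s : ℚ) * mst * z00 + ρ0 + x 0 0 * κ)) * h01''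
    + (x 0 0) * hκ' + (-(s41cStar M : ℚ) * ℓ * s) * h00
    + (-(s41cStar M : ℚ) * ℓ * s * z00) * hmstq

end phi

/-- the Weyl element -/
def s41cS : SL(2, ℚ) := ⟨!![0, -1; 1, 0], by simp [Matrix.det_fin_two]⟩

@[simp] theorem s41cS_00 : s41cS 0 0 = 0 := rfl
@[simp] theorem s41cS_01 : s41cS 0 1 = -1 := rfl
@[simp] theorem s41cS_10 : s41cS 1 0 = 1 := rfl
@[simp] theorem s41cS_11 : s41cS 1 1 = 0 := rfl

theorem s41cS_mem_G (q : ℕ) : s41cS ∈ s41cG q := by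
  intro i j
  fin_cases i <;> fin_cases j
  · exact Subring.zero_mem _
  · exact Subring.neg_mem _ (Subring.one_mem _)
  · exact Subring.one_mem _
  · exact Subring.zero_mem _

theorem s41cS_conj_L (t : ℚ) : s41cS * s41cL t * s41cS⁻¹ = s41cU (-t) := by
  apply s41c_ext <;> simp only [s41c_mul_apply, s41c_inv_00, s41c_inv_01, s41c_inv_10,
    s41c_inv_11, s41cS_00, s41cS_01, s41cS_10, s41cS_11, s41cL_00, s41cL_01, s41cL_10, s41cL_11,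
    s41cU_00, s41cU_01, s41cU_10, s41cU_11] <;> ring

theorem s41cDvd_one_of_mem {q : ℕ} {y : ℚ} (hy : y ∈ s41cA q) : s41cDvd q 1 y :=
  ⟨y, hy, by simp⟩

theorem s41cGam_level_one {q : ℕ} {x : SL(2, ℚ)} (hx : x ∈ s41cG q) : x ∈ s41cGam q 1 :=
  ⟨hx, s41cDvd_one_of_mem (Subring.sub_mem _ (hx 0 0) (Subring.one_mem _)),
    s41cDvd_one_of_mem (hx 0 1), s41cDvd_one_of_mem (hx 1 0),
    s41cDvd_one_of_mem (Subring.sub_mem _ (hx 1 1) (Subring.one_mem _))⟩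

section phi2

variable {q M : ℕ} {𝔄 : Type*} [AddCommGroup 𝔄] {φ : SL(2, ℚ) → 𝔄}

theorem S41cHyp.conj (H : S41cHyp q M φ) {g : SL(2, ℚ)} (hg : g ∈ s41cG q) :
    S41cHyp q M (fun y => φ (g * y * g⁻¹)) where
  mul x hx y hy := by
    have e : g * (x * y) * g⁻¹ = (g * x * g⁻¹) * (g * y * g⁻¹) := by group
    show φ (g * (x * y) * g⁻¹) = φ (g * x * g⁻¹) + φ (g * y * g⁻¹)
    rw [e]
    exact H.mul _ (s41cGam_conj hg hx) _ (s41cGam_conj hg hy)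
  unip x hx htr := H.unip _ (s41cGam_conj hg hx) (by rw [s41c_trace_conj]; exact htr)

/-- invariance under `u(t)`. -/
theorem S41cHyp.u_inv (H : S41cHyp q M φ) (hq : q.Prime) (hM : S41cAdm q M) (hM1 : M ≠ 1)
    {x : SL(2, ℚ)} (hx : x ∈ s41cGam q (s41cStar M)) {t : ℚ} (ht : t ∈ s41cA q) :
    φ (s41cU t * x * (s41cU t)⁻¹) = φ x := by
  have hS := s41cS_mem_G q
  have hS' : s41cS⁻¹ ∈ s41cG q := (s41cG q).inv_mem hS
  have hx' : s41cS⁻¹ * x * s41cS⁻¹⁻¹ ∈ s41cGam q (s41cStar M) := s41cGam_conj hS' hx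
  have h := (H.conj hS).l_inv hq hM hM1 hx' (Subring.neg_mem _ ht)
  have e1 : s41cS * (s41cL (-t) * (s41cS⁻¹ * x * s41cS⁻¹⁻¹) * (s41cL (-t))⁻¹) * s41cS⁻¹
      = s41cU t * x * (s41cU t)⁻¹ := by
    have : s41cU t = s41cS * s41cL (-t) * s41cS⁻¹ := by rw [s41cS_conj_L, neg_neg]
    rw [this]; group
  have e2 : s41cS * (s41cS⁻¹ * x * s41cS⁻¹⁻¹) * s41cS⁻¹ = x := by group
  simp only [e1, e2] at h
  exact h

/-- THEOREM C for `M ≠ 1`. -/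
theorem S41cHyp.central (H : S41cHyp q M φ) (hq : q.Prime) (hM : S41cAdm q M) (hM1 : M ≠ 1)
    {g : SL(2, ℚ)} (hg : g ∈ s41cG q) :
    ∀ x ∈ s41cGam q (s41cStar M), φ (g * x * g⁻¹) = φ x := by
  refine s41c_G_induction hq
    (fun g => ∀ x ∈ s41cGam q (s41cStar M), φ (g * x * g⁻¹) = φ x) ?_ ?_ ?_ g hg
  · intro x _
    simp
  · intro s hs g hg ih x hx
    have hgx := s41cGam_conj hg hx
    have e : s41cU s * g * x * (s41cU s * g)⁻¹ = s41cU s * (g * x * g⁻¹) * (s41cU s)⁻¹ := by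
      group
    rw [e, H.u_inv hq hM hM1 hgx hs, ih x hx]
  · intro s hs g hg ih x hx
    have hgx := s41cGam_conj hg hx
    have e : s41cL s * g * x * (s41cL s * g)⁻¹ = s41cL s * (g * x * g⁻¹) * (s41cL s)⁻¹ := by
      group
    rw [e, H.l_inv hq hM hM1 hgx hs, ih x hx]

end phi2

/-- (C) THEOREM C, centrality. -/
theorem s41c_central {q : ℕ} (hq : q.Prime) {M : ℕ} (hM : S41cAdm q M)
    {𝔄 : Type*} [AddCommGroup 𝔄] (φ : SL(2, ℚ) → 𝔄)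
    (hmul : ∀ x ∈ s41cGam q M, ∀ y ∈ s41cGam q M, φ (x * y) = φ x + φ y)
    (hunip : ∀ x ∈ s41cGam q M, (x : Matrix (Fin 2) (Fin 2) ℚ).trace = 2 → φ x = 0)
    {g : SL(2, ℚ)} (hg : g ∈ s41cG q) {x : SL(2, ℚ)} (hx : x ∈ s41cGam q (s41cStar M)) :
    φ (g * x * g⁻¹) = φ x := by
  by_cases hM1 : M = 1
  · subst hM1
    have hz : ∀ y ∈ s41cG q, φ y = 0 :=
      s41c_hom_zero_of_u_one hq φ
        (fun x hx y hy => hmul x (s41cGam_level_one hx) y (s41cGam_level_one hy))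
        (hunip _ (s41cGam_level_one (s41cU_mem_G (Subring.one_mem _))) (s41cU_trace 1))
    have hxG : x ∈ s41cG q := hx.1
    rw [hz x hxG, hz _ ((s41cG q).mul_mem ((s41cG q).mul_mem hg hxG) ((s41cG q).inv_mem hg))]
  · exact S41cHyp.central ⟨hmul, hunip⟩ hq hM hM1 hg x hx


end Fermat.Agent.S41
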