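import Fermat.Agent.S41.CSP.Defs

/-!
# S41, package CSP: the group-theoretic core of the centrality theorem

For a function `φ : SL(2, ℚ) → 𝔄` which is additive on `Γ_A(M)` and kills its trace-2 elements
(`S41cHyp`): `φ` only depends on the first row (`same_row`), `φ (h w) = 0` for units
`w ≡ 1 mod M` (`h_zero`, Whitehead), and THE KEY STEP (`key`): if `w² a ≡ a - t b` modulo `M b`
then `φ (l(t) x l(t)⁻¹) = φ x`.
-/

set_option autoImplicit false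
namespace Fermat.Agent.S41
open Matrix
open scoped MatrixGroups

theorem s41c_ext {x y : SL(2, ℚ)} (h00 : x 0 0 = y 0 0) (h01 : x 0 1 = y 0 1)
    (h10 : x 1 0 = y 1 0) (h11 : x 1 1 = y 1 1) : x = y := by
  apply Subtype.ext
  ext i j
  fin_cases i <;> fin_cases j <;> assumption

theorem s41c_det (x : SL(2, ℚ)) : x 0 0 * x 1 1 - x 0 1 * x 1 0 = 1 := by
  have := x.det_coe
  rwa [Matrix.det_fin_two] at this

@[simp] theorem s41cU_00 (s : ℚ) : s41cU s 0 0 = 1 := rfl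
@[simp] theorem s41cU_01 (s : ℚ) : s41cU s 0 1 = s := rfl
@[simp] theorem s41cU_10 (s : ℚ) : s41cU s 1 0 = 0 := rfl
@[simp] theorem s41cU_11 (s : ℚ) : s41cU s 1 1 = 1 := rfl
@[simp] theorem s41cL_00 (s : ℚ) : s41cL s 0 0 = 1 := rfl
@[simp] theorem s41cL_01 (s : ℚ) : s41cL s 0 1 = 0 := rfl
@[simp] theorem s41cL_10 (s : ℚ) : s41cL s 1 0 = s := rfl
@[simp] theorem s41cL_11 (s : ℚ) : s41cL s 1 1 = 1 := rfl
@[simp] theorem s41cH_00 (w : ℚ) (hw : w ≠ 0) : s41cH w hw 0 0 = w := rfl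
@[simp] theorem s41cH_01 (w : ℚ) (hw : w ≠ 0) : s41cH w hw 0 1 = 0 := rfl
@[simp] theorem s41cH_10 (w : ℚ) (hw : w ≠ 0) : s41cH w hw 1 0 = 0 := rfl
@[simp] theorem s41cH_11 (w : ℚ) (hw : w ≠ 0) : s41cH w hw 1 1 = w⁻¹ := rfl

theorem s41c_mul_apply (x y : SL(2, ℚ)) (i j : Fin 2) :
    (x * y) i j = x i 0 * y 0 j + x i 1 * y 1 j := by
  rw [Matrix.SpecialLinearGroup.coe_mul, Matrix.mul_apply, Fin.sum_univ_two]

theorem s41c_inv_00 (x : SL(2, ℚ)) : x⁻¹ 0 0 = x 1 1 := by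
  rw [Matrix.SpecialLinearGroup.coe_inv, Matrix.adjugate_fin_two]; rfl
theorem s41c_inv_01 (x : SL(2, ℚ)) : x⁻¹ 0 1 = - x 0 1 := by
  rw [Matrix.SpecialLinearGroup.coe_inv, Matrix.adjugate_fin_two]; rfl
theorem s41c_inv_10 (x : SL(2, ℚ)) : x⁻¹ 1 0 = - x 1 0 := by
  rw [Matrix.SpecialLinearGroup.coe_inv, Matrix.adjugate_fin_two]; rfl
theorem s41c_inv_11 (x : SL(2, ℚ)) : x⁻¹ 1 1 = x 0 0 := by
  rw [Matrix.SpecialLinearGroup.coe_inv, Matrix.adjugate_fin_two]; rfl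

theorem s41cL_inv (s : ℚ) : (s41cL s)⁻¹ = s41cL (-s) := by
  apply s41c_ext <;> simp [s41c_inv_00, s41c_inv_01, s41c_inv_10, s41c_inv_11]

theorem s41cU_inv (s : ℚ) : (s41cU s)⁻¹ = s41cU (-s) := by
  apply s41c_ext <;> simp [s41c_inv_00, s41c_inv_01, s41c_inv_10, s41c_inv_11]

/-- same first row ⇒ differ by a left `l(s)` -/
theorem s41c_same_row {x y : SL(2, ℚ)} (h0 : x 0 0 = y 0 0) (h1 : x 0 1 = y 0 1) :
    y = s41cL (y 1 0 * x 1 1 - y 1 1 * x 1 0) * x := by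
  have hx := s41c_det x
  have hy := s41c_det y
  apply s41c_ext
  · simp [s41c_mul_apply, h0]
  · simp [s41c_mul_apply, h1]
  · simp only [s41c_mul_apply, s41cL_10, s41cL_11]
    rw [← h0, ← h1] at hy
    linear_combination (-(y 1 0)) * hx + (x 1 0) * hy
  · simp only [s41c_mul_apply, s41cL_10, s41cL_11]
    rw [← h0, ← h1] at hy
    linear_combination (-(y 1 1)) * hx + (x 1 1) * hy

theorem s41cDvd_zero (q M : ℕ) : s41cDvd q M 0 := ⟨0, Subring.zero_mem _, by simp⟩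

theorem s41cDvd_add {q M : ℕ} {x y : ℚ} (hx : s41cDvd q M x) (hy : s41cDvd q M y) :
    s41cDvd q M (x + y) := by
  obtain ⟨a, ha, rfl⟩ := hx
  obtain ⟨b, hb, rfl⟩ := hy
  exact ⟨a + b, Subring.add_mem _ ha hb, by ring⟩

theorem s41cDvd_neg {q M : ℕ} {x : ℚ} (hx : s41cDvd q M x) : s41cDvd q M (-x) := by
  obtain ⟨a, ha, rfl⟩ := hx
  exact ⟨-a, Subring.neg_mem _ ha, by ring⟩

theorem s41cDvd_sub {q M : ℕ} {x y : ℚ} (hx : s41cDvd q M x) (hy : s41cDvd q M y) :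
    s41cDvd q M (x - y) := by
  rw [sub_eq_add_neg]; exact s41cDvd_add hx (s41cDvd_neg hy)

theorem s41cDvd_mul_left {q M : ℕ} {x y : ℚ} (hx : x ∈ s41cA q) (hy : s41cDvd q M y) :
    s41cDvd q M (x * y) := by
  obtain ⟨b, hb, rfl⟩ := hy
  exact ⟨x * b, Subring.mul_mem _ hx hb, by ring⟩

theorem s41cDvd_mul_right {q M : ℕ} {x y : ℚ} (hx : s41cDvd q M x) (hy : y ∈ s41cA q) :
    s41cDvd q M (x * y) := by
  rw [mul_comm]; exact s41cDvd_mul_left hy hx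

theorem s41cDvd_mem {q M : ℕ} {x : ℚ} (hx : s41cDvd q M x) : x ∈ s41cA q := by
  obtain ⟨a, ha, rfl⟩ := hx
  exact Subring.mul_mem _ (s41cA_nat q M) ha

theorem s41cDvd_of_dvd {q M M' : ℕ} (h : M ∣ M') {x : ℚ} (hx : s41cDvd q M' x) :
    s41cDvd q M x := by
  obtain ⟨a, ha, rfl⟩ := hx
  obtain ⟨k, rfl⟩ := h
  exact ⟨k * a, Subring.mul_mem _ (s41cA_nat q k) ha, by push_cast; ring⟩

theorem s41cDvd_self_mul {q M : ℕ} {x : ℚ} (hx : x ∈ s41cA q) : s41cDvd q M ((M : ℚ) * x) :=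
  ⟨x, hx, rfl⟩

/-- entrywise divisibility of a matrix -/
def s41cMatDvd (q M : ℕ) (m : Matrix (Fin 2) (Fin 2) ℚ) : Prop := ∀ i j, s41cDvd q M (m i j)

theorem s41cGam_iff {q M : ℕ} {x : SL(2, ℚ)} :
    x ∈ s41cGam q M ↔ x ∈ s41cG q ∧ s41cMatDvd q M ((x : Matrix (Fin 2) (Fin 2) ℚ) - 1) := by
  constructor
  · rintro ⟨hG, h00, h01, h10, h11⟩
    refine ⟨hG, fun i j => ?_⟩
    fin_cases i <;> fin_cases j <;> simpa using by assumption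
  · rintro ⟨hG, h⟩
    refine ⟨hG, ?_, ?_, ?_, ?_⟩
    · simpa using h 0 0
    · simpa using h 0 1
    · simpa using h 1 0
    · simpa using h 1 1

theorem s41cMatDvd_add {q M : ℕ} {m n : Matrix (Fin 2) (Fin 2) ℚ} (hm : s41cMatDvd q M m)
    (hn : s41cMatDvd q M n) : s41cMatDvd q M (m + n) := fun i j => by
  rw [Matrix.add_apply]; exact s41cDvd_add (hm i j) (hn i j)

theorem s41cMatDvd_neg {q M : ℕ} {m : Matrix (Fin 2) (Fin 2) ℚ} (hm : s41cMatDvd q M m) :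
    s41cMatDvd q M (-m) := fun i j => by
  rw [Matrix.neg_apply]; exact s41cDvd_neg (hm i j)

theorem s41cMatDvd_mul_left {q M : ℕ} {g m : Matrix (Fin 2) (Fin 2) ℚ}
    (hg : ∀ i j, g i j ∈ s41cA q) (hm : s41cMatDvd q M m) : s41cMatDvd q M (g * m) := fun i j => by
  rw [Matrix.mul_apply, Fin.sum_univ_two]
  exact s41cDvd_add (s41cDvd_mul_left (hg _ _) (hm _ _)) (s41cDvd_mul_left (hg _ _) (hm _ _))

theorem s41cMatDvd_mul_right {q M : ℕ} {g m : Matrix (Fin 2) (Fin 2) ℚ}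
    (hm : s41cMatDvd q M m) (hg : ∀ i j, g i j ∈ s41cA q) : s41cMatDvd q M (m * g) := fun i j => by
  rw [Matrix.mul_apply, Fin.sum_univ_two]
  exact s41cDvd_add (s41cDvd_mul_right (hm _ _) (hg _ _)) (s41cDvd_mul_right (hm _ _) (hg _ _))

theorem s41cGam_subset_G {q M : ℕ} {x : SL(2, ℚ)} (hx : x ∈ s41cGam q M) : x ∈ s41cG q := hx.1

theorem s41cGam_mul {q M : ℕ} {x y : SL(2, ℚ)} (hx : x ∈ s41cGam q M) (hy : y ∈ s41cGam q M) :
    x * y ∈ s41cGam q M := by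
  rw [s41cGam_iff] at *
  refine ⟨(s41cG q).mul_mem hx.1 hy.1, ?_⟩
  have : ((x * y : SL(2, ℚ)) : Matrix (Fin 2) (Fin 2) ℚ) - 1
      = ((x : Matrix (Fin 2) (Fin 2) ℚ) - 1) * (y : Matrix (Fin 2) (Fin 2) ℚ)
        + ((y : Matrix (Fin 2) (Fin 2) ℚ) - 1) := by
    rw [Matrix.SpecialLinearGroup.coe_mul]; noncomm_ring
  rw [this]
  exact s41cMatDvd_add (s41cMatDvd_mul_right hx.2 hy.1) hy.2

theorem s41cGam_conj {q M : ℕ} {g x : SL(2, ℚ)} (hg : g ∈ s41cG q) (hx : x ∈ s41cGam q M) :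
    g * x * g⁻¹ ∈ s41cGam q M := by
  rw [s41cGam_iff] at *
  refine ⟨(s41cG q).mul_mem ((s41cG q).mul_mem hg hx.1) ((s41cG q).inv_mem hg), ?_⟩
  have : ((g * x * g⁻¹ : SL(2, ℚ)) : Matrix (Fin 2) (Fin 2) ℚ) - 1
      = (g : Matrix (Fin 2) (Fin 2) ℚ) * ((x : Matrix (Fin 2) (Fin 2) ℚ) - 1)
        * ((g⁻¹ : SL(2, ℚ)) : Matrix (Fin 2) (Fin 2) ℚ) := by
    have h1 : (g : Matrix (Fin 2) (Fin 2) ℚ) * ((g⁻¹ : SL(2, ℚ)) : Matrix (Fin 2) (Fin 2) ℚ) = 1 := by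
      rw [← Matrix.SpecialLinearGroup.coe_mul, mul_inv_cancel, Matrix.SpecialLinearGroup.coe_one]
    rw [Matrix.SpecialLinearGroup.coe_mul, Matrix.SpecialLinearGroup.coe_mul, Matrix.mul_sub,
      Matrix.sub_mul, Matrix.mul_one, h1]
  rw [this]
  exact s41cMatDvd_mul_right (s41cMatDvd_mul_left hg hx.2) ((s41cG q).inv_mem hg)

theorem s41cGam_inv {q M : ℕ} {x : SL(2, ℚ)} (hx : x ∈ s41cGam q M) : x⁻¹ ∈ s41cGam q M := by
  rw [s41cGam_iff] at *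
  refine ⟨(s41cG q).inv_mem hx.1, ?_⟩
  have : ((x⁻¹ : SL(2, ℚ)) : Matrix (Fin 2) (Fin 2) ℚ) - 1
      = -(((x⁻¹ : SL(2, ℚ)) : Matrix (Fin 2) (Fin 2) ℚ) * ((x : Matrix (Fin 2) (Fin 2) ℚ) - 1)) := by
    have h1 : ((x⁻¹ : SL(2, ℚ)) : Matrix (Fin 2) (Fin 2) ℚ) * (x : Matrix (Fin 2) (Fin 2) ℚ) = 1 := by
      rw [← Matrix.SpecialLinearGroup.coe_mul, inv_mul_cancel, Matrix.SpecialLinearGroup.coe_one]
    rw [Matrix.mul_sub, h1, Matrix.mul_one]; abel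
  rw [this]
  exact s41cMatDvd_neg (s41cMatDvd_mul_left ((s41cG q).inv_mem hx.1) hx.2)

theorem s41cGam_one (q M : ℕ) : (1 : SL(2, ℚ)) ∈ s41cGam q M := by
  rw [s41cGam_iff]
  refine ⟨(s41cG q).one_mem, fun i j => ?_⟩
  simp [s41cDvd_zero]

theorem s41cGam_of_dvd {q M M' : ℕ} (h : M ∣ M') {x : SL(2, ℚ)} (hx : x ∈ s41cGam q M') :
    x ∈ s41cGam q M := by
  rw [s41cGam_iff] at *
  exact ⟨hx.1, fun i j => s41cDvd_of_dvd h (hx.2 i j)⟩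


/-! ### membership of the elementary matrices -/

theorem s41cU_mem_G {q : ℕ} {s : ℚ} (hs : s ∈ s41cA q) : s41cU s ∈ s41cG q := by
  intro i j
  fin_cases i <;> fin_cases j <;> simp [hs]

theorem s41cL_mem_G {q : ℕ} {s : ℚ} (hs : s ∈ s41cA q) : s41cL s ∈ s41cG q := by
  intro i j
  fin_cases i <;> fin_cases j <;> simp [hs]

theorem s41cH_mem_G {q : ℕ} {w : ℚ} (hw0 : w ≠ 0) (hw : w ∈ s41cA q) (hw' : w⁻¹ ∈ s41cA q) :
    s41cH w hw0 ∈ s41cG q := by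
  intro i j
  fin_cases i <;> fin_cases j <;> simp [hw, hw']

theorem s41cU_mem_Gam {q M : ℕ} {s : ℚ} (hs : s41cDvd q M s) : s41cU s ∈ s41cGam q M :=
  ⟨s41cU_mem_G (s41cDvd_mem hs), by simpa using s41cDvd_zero q M, by simpa using hs,
    by simpa using s41cDvd_zero q M, by simpa using s41cDvd_zero q M⟩

theorem s41cL_mem_Gam {q M : ℕ} {s : ℚ} (hs : s41cDvd q M s) : s41cL s ∈ s41cGam q M :=
  ⟨s41cL_mem_G (s41cDvd_mem hs), by simpa using s41cDvd_zero q M, by simpa using s41cDvd_zero q M,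
    by simpa using hs, by simpa using s41cDvd_zero q M⟩

theorem s41cU_trace (s : ℚ) : ((s41cU s : SL(2, ℚ)) : Matrix (Fin 2) (Fin 2) ℚ).trace = 2 := by
  rw [Matrix.trace_fin_two]; simp; norm_num

theorem s41cL_trace (s : ℚ) : ((s41cL s : SL(2, ℚ)) : Matrix (Fin 2) (Fin 2) ℚ).trace = 2 := by
  rw [Matrix.trace_fin_two]; simp; norm_num

theorem s41c_trace_conj (g x : SL(2, ℚ)) :
    ((g * x * g⁻¹ : SL(2, ℚ)) : Matrix (Fin 2) (Fin 2) ℚ).trace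
      = (x : Matrix (Fin 2) (Fin 2) ℚ).trace := by
  rw [Matrix.SpecialLinearGroup.coe_mul, Matrix.SpecialLinearGroup.coe_mul, Matrix.trace_mul_cycle,
    ← Matrix.SpecialLinearGroup.coe_mul, inv_mul_cancel, Matrix.SpecialLinearGroup.coe_one,
    Matrix.one_mul]

/-- Whitehead: `h(w) = l(-z/w) · [u(1) l(z) u(-1)] · u(z/w)`, `z = w - 1`. -/
theorem s41cH_eq (w : ℚ) (hw : w ≠ 0) :
    s41cH w hw = s41cL (-(w - 1) / w) * (s41cU 1 * s41cL (w - 1) * (s41cU 1)⁻¹) * s41cU ((w - 1) / w) := by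
  rw [s41cU_inv]
  apply s41c_ext <;> simp only [s41c_mul_apply, s41cH_00, s41cH_01, s41cH_10, s41cH_11, s41cU_00,
    s41cU_01, s41cU_10, s41cU_11, s41cL_00, s41cL_01, s41cL_10, s41cL_11] <;> field_simp <;> ring

section phi

variable {q M : ℕ} {𝔄 : Type*} [AddCommGroup 𝔄] (φ : SL(2, ℚ) → 𝔄)

/-- the standing hypotheses on `φ` -/
structure S41cHyp (q M : ℕ) {𝔄 : Type*} [AddCommGroup 𝔄] (φ : SL(2, ℚ) → 𝔄) : Prop where
  mul : ∀ x ∈ s41cGam q M, ∀ y ∈ s41cGam q M, φ (x * y) = φ x + φ y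
  unip : ∀ x ∈ s41cGam q M, (x : Matrix (Fin 2) (Fin 2) ℚ).trace = 2 → φ x = 0

variable {φ}

theorem S41cHyp.same_row (H : S41cHyp q M φ) {x y : SL(2, ℚ)} (hx : x ∈ s41cGam q M)
    (hy : y ∈ s41cGam q M) (h0 : x 0 0 = y 0 0) (h1 : x 0 1 = y 0 1) : φ y = φ x := by
  have hs : s41cDvd q M (y 1 0 * x 1 1 - y 1 1 * x 1 0) :=
    s41cDvd_sub (s41cDvd_mul_right hy.2.2.2.1 (hx.1 _ _)) (s41cDvd_mul_left (hy.1 _ _) hx.2.2.2.1)
  have hL := s41cL_mem_Gam hs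
  rw [s41c_same_row h0 h1, H.mul _ hL _ hx, H.unip _ hL (s41cL_trace _), zero_add]

theorem S41cHyp.h_zero (H : S41cHyp q M φ) {w : ℚ} (hw0 : w ≠ 0)
    (hw' : w⁻¹ ∈ s41cA q) (hw1 : s41cDvd q M (w - 1)) : φ (s41cH w hw0) = 0 := by
  have h1 : s41cDvd q M (-(w - 1) / w) := by
    rw [div_eq_mul_inv]; exact s41cDvd_mul_right (s41cDvd_neg hw1) hw'
  have h3 : s41cDvd q M ((w - 1) / w) := by
    rw [div_eq_mul_inv]; exact s41cDvd_mul_right hw1 hw'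
  have hU1 : s41cU 1 ∈ s41cG q := s41cU_mem_G (Subring.one_mem _)
  have hA := s41cL_mem_Gam h1
  have hB : s41cU 1 * s41cL (w - 1) * (s41cU 1)⁻¹ ∈ s41cGam q M :=
    s41cGam_conj hU1 (s41cL_mem_Gam hw1)
  have hC := s41cU_mem_Gam h3
  rw [s41cH_eq w hw0, H.mul _ (s41cGam_mul hA hB) _ hC, H.mul _ hA _ hB,
    H.unip _ hA (s41cL_trace _), H.unip _ hC (s41cU_trace _),
    H.unip _ hB (by rw [s41c_trace_conj]; exact s41cL_trace _)]
  simp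

theorem s41cH_mem_Gam {w : ℚ} (hw0 : w ≠ 0) (hw : w ∈ s41cA q)
    (hw' : w⁻¹ ∈ s41cA q) (hw1 : s41cDvd q M (w - 1)) : s41cH w hw0 ∈ s41cGam q M := by
  refine ⟨s41cH_mem_G hw0 hw hw', by simpa using hw1, by simpa using s41cDvd_zero q M,
    by simpa using s41cDvd_zero q M, ?_⟩
  have : w⁻¹ - 1 = -(w - 1) * w⁻¹ := by field_simp; ring
  simp only [s41cH_11]
  rw [this]
  exact s41cDvd_mul_right (s41cDvd_neg hw1) hw'

/-- THE KEY STEP. -/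
theorem S41cHyp.key (H : S41cHyp q M φ) {x : SL(2, ℚ)} (hx : x ∈ s41cGam q M) {t : ℚ}
    (ht : t ∈ s41cA q) {w : ℚ} (hw0 : w ≠ 0) (hw : w ∈ s41cA q) (hw' : w⁻¹ ∈ s41cA q)
    (hw1 : s41cDvd q M (w - 1)) {σ : ℚ} (hσ : σ ∈ s41cA q)
    (hcong : x 0 0 - t * x 0 1 = w ^ 2 * x 0 0 + (M : ℚ) * σ * x 0 1) :
    φ (s41cL t * x * (s41cL t)⁻¹) = φ x := by
  have hh := s41cH_mem_Gam (M := M) hw0 hw hw' hw1
  have hl := s41cL_mem_Gam (q := q) (M := M) (s41cDvd_self_mul hσ)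
  have hy : s41cL t * x * (s41cL t)⁻¹ ∈ s41cGam q M := s41cGam_conj (s41cL_mem_G ht) hx
  have hz1 : s41cH w hw0 * x ∈ s41cGam q M := s41cGam_mul hh hx
  have hz2 : s41cH w hw0 * x * s41cH w hw0 ∈ s41cGam q M := s41cGam_mul hz1 hh
  have hz : s41cH w hw0 * x * s41cH w hw0 * s41cL ((M : ℚ) * σ) ∈ s41cGam q M :=
    s41cGam_mul hz2 hl
  have h00 : (s41cH w hw0 * x * s41cH w hw0 * s41cL ((M : ℚ) * σ)) 0 0
      = (s41cL t * x * (s41cL t)⁻¹) 0 0 := by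
    rw [s41cL_inv]
    simp only [s41c_mul_apply, s41cH_00, s41cH_01, s41cH_10, s41cH_11, s41cL_00, s41cL_01,
      s41cL_10]
    have hww : w * w⁻¹ = 1 := mul_inv_cancel₀ hw0
    linear_combination (-1 : ℚ) * hcong + (x 0 1 * ((M : ℚ) * σ)) * hww
  have h01 : (s41cH w hw0 * x * s41cH w hw0 * s41cL ((M : ℚ) * σ)) 0 1
      = (s41cL t * x * (s41cL t)⁻¹) 0 1 := by
    rw [s41cL_inv]
    simp only [s41c_mul_apply, s41cH_00, s41cH_01, s41cH_10, s41cH_11, s41cL_00, s41cL_01,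
      s41cL_11]
    have hww : w * w⁻¹ = 1 := mul_inv_cancel₀ hw0
    linear_combination (x 0 1) * hww
  rw [H.same_row hz hy h00 h01, H.mul _ hz2 _ hl, H.mul _ hz1 _ hh, H.mul _ hh _ hx,
    H.h_zero hw0 hw' hw1, H.unip _ hl (s41cL_trace _)]
  simp

/-- Step 1: the reduction `x ↦ x · u(s')`. -/
theorem S41cHyp.step_one (H : S41cHyp q M φ) {x : SL(2, ℚ)} (hx : x ∈ s41cGam q M) {t : ℚ}
    (ht : t ∈ s41cA q) {s' : ℚ} (hs' : s41cDvd q M s')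
    (h : φ (s41cL t * (x * s41cU s') * (s41cL t)⁻¹) = φ (x * s41cU s')) :
    φ (s41cL t * x * (s41cL t)⁻¹) = φ x := by
  have hu := s41cU_mem_Gam hs'
  have hL := s41cL_mem_G ht
  have e : s41cL t * (x * s41cU s') * (s41cL t)⁻¹
      = (s41cL t * x * (s41cL t)⁻¹) * (s41cL t * s41cU s' * (s41cL t)⁻¹) := by group
  rw [e, H.mul _ (s41cGam_conj hL hx) _ (s41cGam_conj hL hu), H.mul _ hx _ hu,
    H.unip _ hu (s41cU_trace _),
    H.unip _ (s41cGam_conj hL hu) (by rw [s41c_trace_conj]; exact s41cU_trace _)] at h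
  simpa using h

end phi

end Fermat.Agent.S41

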