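import Fermat.Agent.S41.CSP.Central

/-!
# S41, package CSP: (B) in abstract coset form

`s41c_hecke_abs`: let `Φ` be additive on `Δ_N` and kill its trace-2 elements, `M` admissible with
`N ∣ M`.  Given "Hecke data" on `G = SL₂(ℤ[1/q])` (a cocycle `c : G → I → G` over an action
`s : G → I → I`, preserving `Δ_N`) and elements `D i ∈ Δ_N` with
`c x i * D (s x i) * x⁻¹ * (D i)⁻¹ ∈ Γ_A(M*)`, and `Φ (c (u 1) i) = 0`:
`∑ i, Φ (c x i) = |I| • Φ x` on `Δ_N`.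

Proof: `E x := ∑ i, Φ (c x i * D (s x i) * x⁻¹ * (D i)⁻¹)` is additive on `G` by centrality
(`s41c_central`), vanishes at `u 1`, hence vanishes (`s41c_hom_zero_of_u_one`); on `Δ_N` it equals
`∑ i, Φ (c x i) - |I| • Φ x`.
-/

set_option autoImplicit false
namespace Fermat.Agent.S41
open Matrix
open scoped MatrixGroups

/-! ### `Δ_N` is a group containing `Γ_A(M)` for `N ∣ M` -/

theorem s41cDelta_one (q N : ℕ) : (1 : SL(2, ℚ)) ∈ s41cDelta q N :=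
  ⟨(s41cG q).one_mem, by simpa using s41cDvd_zero q N⟩

theorem s41cDelta_mul {q N : ℕ} {x y : SL(2, ℚ)} (hx : x ∈ s41cDelta q N)
    (hy : y ∈ s41cDelta q N) : x * y ∈ s41cDelta q N := by
  refine ⟨(s41cG q).mul_mem hx.1 hy.1, ?_⟩
  rw [s41c_mul_apply]
  exact s41cDvd_add (s41cDvd_mul_right hx.2 (hy.1 _ _)) (s41cDvd_mul_left (hx.1 _ _) hy.2)

theorem s41cDelta_inv {q N : ℕ} {x : SL(2, ℚ)} (hx : x ∈ s41cDelta q N) :
    x⁻¹ ∈ s41cDelta q N := by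
  refine ⟨(s41cG q).inv_mem hx.1, ?_⟩
  rw [s41c_inv_10]
  exact s41cDvd_neg hx.2

theorem s41cGam_subset_Delta {q N M : ℕ} (h : N ∣ M) {x : SL(2, ℚ)} (hx : x ∈ s41cGam q M) :
    x ∈ s41cDelta q N :=
  ⟨hx.1, s41cDvd_of_dvd h hx.2.2.2.1⟩

theorem s41cU_mem_Delta {q N : ℕ} {s : ℚ} (hs : s ∈ s41cA q) : s41cU s ∈ s41cDelta q N :=
  ⟨s41cU_mem_G hs, by simpa using s41cDvd_zero q N⟩

/-- a function additive on `Δ_N`: basic consequences -/
structure S41cHom (q N : ℕ) {𝔄 : Type*} [AddCommGroup 𝔄] (Φ : SL(2, ℚ) → 𝔄) : Prop where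
  mul : ∀ x ∈ s41cDelta q N, ∀ y ∈ s41cDelta q N, Φ (x * y) = Φ x + Φ y
  unip : ∀ x ∈ s41cDelta q N, (x : Matrix (Fin 2) (Fin 2) ℚ).trace = 2 → Φ x = 0

section

variable {q N : ℕ} {𝔄 : Type*} [AddCommGroup 𝔄] {Φ : SL(2, ℚ) → 𝔄}

theorem S41cHom.one (H : S41cHom q N Φ) : Φ 1 = 0 := by
  have := H.mul 1 (s41cDelta_one q N) 1 (s41cDelta_one q N)
  rw [mul_one] at this
  exact left_eq_add.mp this

theorem S41cHom.inv (H : S41cHom q N Φ) {x : SL(2, ℚ)} (hx : x ∈ s41cDelta q N) :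
    Φ x⁻¹ = -Φ x := by
  have := H.mul x hx x⁻¹ (s41cDelta_inv hx)
  rw [mul_inv_cancel, H.one] at this
  exact (neg_eq_of_add_eq_zero_right this.symm).symm

theorem S41cHom.hyp (H : S41cHom q N Φ) {M : ℕ} (h : N ∣ M) : S41cHyp q M Φ where
  mul x hx y hy := H.mul x (s41cGam_subset_Delta h hx) y (s41cGam_subset_Delta h hy)
  unip x hx htr := H.unip x (s41cGam_subset_Delta h hx) htr

/-- **(B), abstract coset form.**  -/
theorem s41c_hecke_abs (hq : q.Prime) {M : ℕ} (hM : S41cAdm q M) (hNM : N ∣ M)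
    (H : S41cHom q N Φ) {I : Type*} [Fintype I]
    (c : SL(2, ℚ) → I → SL(2, ℚ)) (s : SL(2, ℚ) → I → I) (D : I → SL(2, ℚ))
    (hs : ∀ x ∈ s41cG q, Function.Bijective (s x))
    (hcG : ∀ x ∈ s41cG q, ∀ i, c x i ∈ s41cG q)
    (hcΔ : ∀ x ∈ s41cDelta q N, ∀ i, c x i ∈ s41cDelta q N)
    (hcoc : ∀ x ∈ s41cG q, ∀ y ∈ s41cG q, ∀ i, c (x * y) i = c x i * c y (s x i))
    (hscoc : ∀ x ∈ s41cG q, ∀ y ∈ s41cG q, ∀ i, s (x * y) i = s y (s x i))
    (hD : ∀ i, D i ∈ s41cDelta q N)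
    (hk : ∀ x ∈ s41cG q, ∀ i, c x i * D (s x i) * x⁻¹ * (D i)⁻¹ ∈ s41cGam q (s41cStar M))
    (h1 : ∀ i, Φ (c (s41cU 1) i) = 0) :
    ∀ x ∈ s41cDelta q N, ∑ i, Φ (c x i) = Fintype.card I • Φ x := by
  obtain ⟨mst, hmst⟩ := s41cStar_eq M
  have hNMs : N ∣ s41cStar M := hNM.trans ⟨mst, hmst⟩
  have hHyp : S41cHyp q M Φ := H.hyp hNM
  -- the function `E`
  set E : SL(2, ℚ) → 𝔄 := fun x => ∑ i, Φ (c x i * D (s x i) * x⁻¹ * (D i)⁻¹) with hE
  -- `E` on `Δ`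
  have hEΔ : ∀ x ∈ s41cDelta q N, E x = ∑ i, Φ (c x i) - Fintype.card I • Φ x := by
    intro x hx
    have h2 : ∀ i, Φ (c x i * D (s x i) * x⁻¹ * (D i)⁻¹)
        = Φ (c x i) + Φ (D (s x i)) - Φ x - Φ (D i) := by
      intro i
      have hc := hcΔ x hx i
      rw [H.mul _ (s41cDelta_mul (s41cDelta_mul hc (hD _)) (s41cDelta_inv hx)) _
        (s41cDelta_inv (hD i)), H.mul _ (s41cDelta_mul hc (hD _)) _ (s41cDelta_inv hx),
        H.mul _ hc _ (hD _), H.inv hx, H.inv (hD i)]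
      abel
    simp only [hE, h2, Finset.sum_sub_distrib, Finset.sum_add_distrib]
    have h3 : ∑ i, Φ (D (s x i)) = ∑ i, Φ (D i) :=
      Equiv.sum_comp (Equiv.ofBijective _ (hs x hx.1)) (fun i => Φ (D i))
    rw [h3, Finset.sum_const, Finset.card_univ]
    abel
  -- `E` is additive on `G`
  have hEmul : ∀ x ∈ s41cG q, ∀ y ∈ s41cG q, E (x * y) = E x + E y := by
    intro x hx y hy
    have h2 : ∀ i, Φ (c (x * y) i * D (s (x * y) i) * (x * y)⁻¹ * (D i)⁻¹)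
        = Φ (c y (s x i) * D (s y (s x i)) * y⁻¹ * (D (s x i))⁻¹)
          + Φ (c x i * D (s x i) * x⁻¹ * (D i)⁻¹) := by
      intro i
      have e : c (x * y) i * D (s (x * y) i) * (x * y)⁻¹ * (D i)⁻¹
          = (c x i * (c y (s x i) * D (s y (s x i)) * y⁻¹ * (D (s x i))⁻¹) * (c x i)⁻¹)
            * (c x i * D (s x i) * x⁻¹ * (D i)⁻¹) := by
        rw [hcoc x hx y hy i, hscoc x hx y hy i]; group
      have hk1 := hk y hy (s x i)
      have hk2 := hk x hx i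
      rw [e, H.mul _ (s41cGam_subset_Delta hNMs (s41cGam_conj (hcG x hx i) hk1)) _
        (s41cGam_subset_Delta hNMs hk2),
        s41c_central hq hM Φ hHyp.mul hHyp.unip (hcG x hx i) hk1]
    simp only [hE, h2, Finset.sum_add_distrib]
    have h3 : ∑ i, Φ (c y (s x i) * D (s y (s x i)) * y⁻¹ * (D (s x i))⁻¹)
        = ∑ i, Φ (c y i * D (s y i) * y⁻¹ * (D i)⁻¹) :=
      Equiv.sum_comp (Equiv.ofBijective _ (hs x hx))
        (fun i => Φ (c y i * D (s y i) * y⁻¹ * (D i)⁻¹))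
    rw [h3, add_comm]
  -- `E (u 1) = 0`
  have hU1 : s41cU 1 ∈ s41cDelta q N := s41cU_mem_Delta (Subring.one_mem _)
  have hE1 : E (s41cU 1) = 0 := by
    rw [hEΔ _ hU1, H.unip _ hU1 (s41cU_trace 1)]
    simp [h1]
  have hE0 := s41c_hom_zero_of_u_one hq E hEmul hE1
  intro x hx
  have := hEΔ x hx
  rw [hE0 x hx.1] at this
  exact (sub_eq_zero.mp this.symm)

end
end Fermat.Agent.S41
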