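import Fermat.Agent.S41.CSP.HeckeDefs
import Fermat.Agent.S41.CSP.Core

/-!
# S41, package CSP: (H-CONG), (H-DEL), (H-UNIP)

Three leaves on the cocycle `c` of `R_i x = c R_i'` for the standard representatives of `T_ℓ`.
-/

set_option autoImplicit false

namespace Fermat.Agent.S41

open Matrix
open scoped MatrixGroups

/-! ### entries of the standard representatives -/

theorem s41chc_rep_00 (ℓ : ℕ) (i : OnePoint (ZMod ℓ)) : s41cRep ℓ i 0 0 = (s41cRepA ℓ i : ℚ) := rfl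
theorem s41chc_rep_01 (ℓ : ℕ) (i : OnePoint (ZMod ℓ)) : s41cRep ℓ i 0 1 = (s41cRepB ℓ i : ℚ) := rfl
theorem s41chc_rep_10 (ℓ : ℕ) (i : OnePoint (ZMod ℓ)) : s41cRep ℓ i 1 0 = 0 := rfl
theorem s41chc_rep_11 (ℓ : ℕ) (i : OnePoint (ZMod ℓ)) : s41cRep ℓ i 1 1 = (s41cRepD ℓ i : ℚ) := rfl

theorem s41chc_repA_infty (ℓ : ℕ) : s41cRepA ℓ (OnePoint.infty : OnePoint (ZMod ℓ)) = ℓ := rfl
theorem s41chc_repA_coe (ℓ : ℕ) (j : ZMod ℓ) : s41cRepA ℓ (j : OnePoint (ZMod ℓ)) = 1 := rfl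
theorem s41chc_repD_infty (ℓ : ℕ) : s41cRepD ℓ (OnePoint.infty : OnePoint (ZMod ℓ)) = 1 := rfl
theorem s41chc_repD_coe (ℓ : ℕ) (j : ZMod ℓ) : s41cRepD ℓ (j : OnePoint (ZMod ℓ)) = ℓ := rfl
theorem s41chc_repB_infty (ℓ : ℕ) : s41cRepB ℓ (OnePoint.infty : OnePoint (ZMod ℓ)) = 0 := rfl
theorem s41chc_repB_coe (ℓ : ℕ) (j : ZMod ℓ) : s41cRepB ℓ (j : OnePoint (ZMod ℓ)) = j.val := rfl

/-- the entries of a product `R * x` -/
theorem s41chc_mul_apply (m n : Matrix (Fin 2) (Fin 2) ℚ) (a b : Fin 2) :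
    (m * n) a b = m a 0 * n 0 b + m a 1 * n 1 b := by
  rw [Matrix.mul_apply, Fin.sum_univ_two]

/-- `1 / ℓ ∉ ℤ[1/q]` for primes `ℓ ≠ q` -/
theorem s41chc_inv_not_mem {q : ℕ} (hq : q.Prime) {ℓ : ℕ} (hℓ : ℓ.Prime) (hℓq : ℓ ≠ q) :
    ((ℓ : ℚ))⁻¹ ∉ s41cA q := by
  rintro ⟨k, m, hm⟩
  have hℓ0 : (ℓ : ℚ) ≠ 0 := Nat.cast_ne_zero.mpr hℓ.ne_zero
  have h1 : ((q : ℤ) ^ k : ℤ) = m * (ℓ : ℤ) := by
    have h2 : ((q : ℚ)) ^ k = (m : ℚ) * (ℓ : ℚ) := by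
      rw [← hm]
      field_simp
    exact_mod_cast h2
  have h3 : (ℓ : ℤ) ∣ (q : ℤ) ^ k := ⟨m, by rw [h1, mul_comm]⟩
  have h4 : ℓ ∣ q ^ k := by exact_mod_cast h3
  have h5 : ℓ ∣ q := hℓ.dvd_of_dvd_pow h4
  exact hℓq ((Nat.prime_dvd_prime_iff_eq hℓ hq).mp h5)

/-- `R_i - u(B_i)` is divisible by `M'` when `M' ∣ ℓ - 1` -/
theorem s41chc_rep_sub {q ℓ M' : ℕ} (hℓ : 1 ≤ ℓ) (hM : M' ∣ ℓ - 1) (i : OnePoint (ZMod ℓ)) :
    s41cMatDvd q M'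
      (s41cRep ℓ i - ((s41cRepU ℓ i : SL(2, ℚ)) : Matrix (Fin 2) (Fin 2) ℚ)) := by
  obtain ⟨k, hk⟩ := hM
  have hdvd : s41cDvd q M' ((ℓ : ℚ) - 1) := by
    refine ⟨k, s41cA_nat q k, ?_⟩
    have h1 : ((ℓ - 1 : ℕ) : ℚ) = (ℓ : ℚ) - 1 := by
      rw [Nat.cast_sub hℓ, Nat.cast_one]
    rw [← h1, hk, Nat.cast_mul]
  intro a b
  rw [Matrix.sub_apply]
  cases i with
  | infty =>
    fin_cases a <;> fin_cases b
    · show s41cDvd q M' ((s41cRepA ℓ OnePoint.infty : ℚ) - 1)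
      exact hdvd
    · show s41cDvd q M' ((s41cRepB ℓ OnePoint.infty : ℚ) - (s41cRepB ℓ OnePoint.infty : ℚ))
      rw [sub_self]; exact s41cDvd_zero q M'
    · show s41cDvd q M' ((0 : ℚ) - 0)
      rw [sub_self]; exact s41cDvd_zero q M'
    · show s41cDvd q M' ((s41cRepD ℓ OnePoint.infty : ℚ) - 1)
      rw [s41chc_repD_infty, Nat.cast_one, sub_self]; exact s41cDvd_zero q M'
  | coe j =>
    fin_cases a <;> fin_cases b
    · show s41cDvd q M' ((s41cRepA ℓ (j : OnePoint (ZMod ℓ)) : ℚ) - 1)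
      rw [s41chc_repA_coe, Nat.cast_one, sub_self]; exact s41cDvd_zero q M'
    · show s41cDvd q M' ((s41cRepB ℓ (j : OnePoint (ZMod ℓ)) : ℚ) -
        (s41cRepB ℓ (j : OnePoint (ZMod ℓ)) : ℚ))
      rw [sub_self]; exact s41cDvd_zero q M'
    · show s41cDvd q M' ((0 : ℚ) - 0)
      rw [sub_self]; exact s41cDvd_zero q M'
    · show s41cDvd q M' ((s41cRepD ℓ (j : OnePoint (ZMod ℓ)) : ℚ) - 1)
      exact hdvd

/-- (H-CONG) for `ℓ ≡ 1 mod M'` the cocycle is congruent to the `u(B_i)`-twisted identity. -/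
theorem s41ch_cong {q : ℕ} {ℓ : ℕ} [Fact ℓ.Prime] {M' : ℕ} (hℓ1 : ℓ ≡ 1 [MOD M'])
    {x c : SL(2, ℚ)} (hx : x ∈ s41cG q) (hc : c ∈ s41cG q) {i i' : OnePoint (ZMod ℓ)}
    (h : s41cRep ℓ i * (x : Matrix (Fin 2) (Fin 2) ℚ)
        = (c : Matrix (Fin 2) (Fin 2) ℚ) * s41cRep ℓ i') :
    c * s41cRepU ℓ i' * x⁻¹ * (s41cRepU ℓ i)⁻¹ ∈ s41cGam q M' := by
  have hℓ : 1 ≤ ℓ := (Fact.out : ℓ.Prime).one_le
  have hM : M' ∣ ℓ - 1 := (Nat.modEq_iff_dvd' hℓ).mp hℓ1.symm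
  have hUi : s41cRepU ℓ i ∈ s41cG q := s41cU_mem_G (s41cA_nat q _)
  have hUi' : s41cRepU ℓ i' ∈ s41cG q := s41cU_mem_G (s41cA_nat q _)
  have htail : x⁻¹ * (s41cRepU ℓ i)⁻¹ ∈ s41cG q :=
    (s41cG q).mul_mem ((s41cG q).inv_mem hx) ((s41cG q).inv_mem hUi)
  rw [s41cGam_iff]
  refine ⟨?_, ?_⟩
  · rw [mul_assoc]
    exact (s41cG q).mul_mem ((s41cG q).mul_mem hc hUi') htail
  · have hZ : s41cMatDvd q M'
        (-((c : Matrix (Fin 2) (Fin 2) ℚ) * (s41cRep ℓ i' -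
            ((s41cRepU ℓ i' : SL(2, ℚ)) : Matrix (Fin 2) (Fin 2) ℚ))) +
          (s41cRep ℓ i - ((s41cRepU ℓ i : SL(2, ℚ)) : Matrix (Fin 2) (Fin 2) ℚ)) *
            (x : Matrix (Fin 2) (Fin 2) ℚ)) :=
      s41cMatDvd_add (s41cMatDvd_neg (s41cMatDvd_mul_left hc (s41chc_rep_sub hℓ hM i')))
        (s41cMatDvd_mul_right (s41chc_rep_sub hℓ hM i) hx)
    have h1 : -((c : Matrix (Fin 2) (Fin 2) ℚ) * (s41cRep ℓ i' -
            ((s41cRepU ℓ i' : SL(2, ℚ)) : Matrix (Fin 2) (Fin 2) ℚ))) +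
          (s41cRep ℓ i - ((s41cRepU ℓ i : SL(2, ℚ)) : Matrix (Fin 2) (Fin 2) ℚ)) *
            (x : Matrix (Fin 2) (Fin 2) ℚ) =
        (c : Matrix (Fin 2) (Fin 2) ℚ) *
            ((s41cRepU ℓ i' : SL(2, ℚ)) : Matrix (Fin 2) (Fin 2) ℚ) -
          ((s41cRepU ℓ i : SL(2, ℚ)) : Matrix (Fin 2) (Fin 2) ℚ) *
            (x : Matrix (Fin 2) (Fin 2) ℚ) := by
      rw [Matrix.mul_sub, Matrix.sub_mul, h]
      abel
    have e1 : ((c * s41cRepU ℓ i' * x⁻¹ * (s41cRepU ℓ i)⁻¹ : SL(2, ℚ)) :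
          Matrix (Fin 2) (Fin 2) ℚ) =
        (c : Matrix (Fin 2) (Fin 2) ℚ) *
            ((s41cRepU ℓ i' : SL(2, ℚ)) : Matrix (Fin 2) (Fin 2) ℚ) *
          ((x⁻¹ * (s41cRepU ℓ i)⁻¹ : SL(2, ℚ)) : Matrix (Fin 2) (Fin 2) ℚ) := by
      rw [mul_assoc (c * s41cRepU ℓ i'), Matrix.SpecialLinearGroup.coe_mul,
        Matrix.SpecialLinearGroup.coe_mul]
    have e2 : ((s41cRepU ℓ i : SL(2, ℚ)) : Matrix (Fin 2) (Fin 2) ℚ) *
          (x : Matrix (Fin 2) (Fin 2) ℚ) *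
          ((x⁻¹ * (s41cRepU ℓ i)⁻¹ : SL(2, ℚ)) : Matrix (Fin 2) (Fin 2) ℚ) = 1 := by
      rw [← Matrix.SpecialLinearGroup.coe_mul, ← Matrix.SpecialLinearGroup.coe_mul]
      have h2 : s41cRepU ℓ i * x * (x⁻¹ * (s41cRepU ℓ i)⁻¹) = 1 := by group
      rw [h2, Matrix.SpecialLinearGroup.coe_one]
    have key : ((c * s41cRepU ℓ i' * x⁻¹ * (s41cRepU ℓ i)⁻¹ : SL(2, ℚ)) :
          Matrix (Fin 2) (Fin 2) ℚ) - 1 =
        (-((c : Matrix (Fin 2) (Fin 2) ℚ) * (s41cRep ℓ i' -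
            ((s41cRepU ℓ i' : SL(2, ℚ)) : Matrix (Fin 2) (Fin 2) ℚ))) +
          (s41cRep ℓ i - ((s41cRepU ℓ i : SL(2, ℚ)) : Matrix (Fin 2) (Fin 2) ℚ)) *
            (x : Matrix (Fin 2) (Fin 2) ℚ)) *
          ((x⁻¹ * (s41cRepU ℓ i)⁻¹ : SL(2, ℚ)) : Matrix (Fin 2) (Fin 2) ℚ) := by
      rw [h1, Matrix.sub_mul, e2, e1]
    rw [key]
    exact s41cMatDvd_mul_right hZ htail

/-- (H-DEL) the cocycle preserves `Δ_N` (`ℓ ∤ N`). -/
theorem s41ch_delta {q : ℕ} {ℓ : ℕ} [Fact ℓ.Prime] {N : ℕ} (hℓN : Nat.Coprime ℓ N)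
    {x c : SL(2, ℚ)} (hx : x ∈ s41cDelta q N) (hc : c ∈ s41cG q) {i i' : OnePoint (ZMod ℓ)}
    (h : s41cRep ℓ i * (x : Matrix (Fin 2) (Fin 2) ℚ)
        = (c : Matrix (Fin 2) (Fin 2) ℚ) * s41cRep ℓ i') :
    c ∈ s41cDelta q N := by
  refine ⟨hc, ?_⟩
  obtain ⟨hxG, y, hy, hxy⟩ := hx
  have hℓ0 : (ℓ : ℚ) ≠ 0 := Nat.cast_ne_zero.mpr (Fact.out : ℓ.Prime).ne_zero
  -- entry (1,0)
  have h10 : (s41cRepD ℓ i : ℚ) * x 1 0 = c 1 0 * (s41cRepA ℓ i' : ℚ) := by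
    have h2 := congrFun (congrFun h 1) 0
    rw [s41chc_mul_apply, s41chc_mul_apply, s41chc_rep_10, s41chc_rep_11, s41chc_rep_00,
      s41chc_rep_10, zero_mul, zero_add, mul_zero, add_zero] at h2
    exact h2
  have hD : (s41cRepD ℓ i : ℚ) ∈ s41cA q := s41cA_nat q _
  cases i' with
  | infty =>
    rw [s41chc_repA_infty, hxy] at h10
    -- `c 1 0 = N z`, `z = D y / ℓ`
    set z : ℚ := (s41cRepD ℓ i : ℚ) * y / ℓ with hz
    have hc10 : c 1 0 = (N : ℚ) * z := by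
      rw [hz]
      field_simp
      linear_combination -h10
    have hℓz : (ℓ : ℚ) * z ∈ s41cA q := by
      have : (ℓ : ℚ) * z = (s41cRepD ℓ i : ℚ) * y := by rw [hz]; field_simp
      rw [this]
      exact Subring.mul_mem _ hD hy
    have hNz : (N : ℚ) * z ∈ s41cA q := by
      rw [← hc10]
      exact hc 1 0
    obtain ⟨u, v, huv⟩ := (Nat.isCoprime_iff_coprime.mpr hℓN)
    have huvq : (u : ℚ) * ℓ + (v : ℚ) * N = 1 := by exact_mod_cast huv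
    have hzA : z ∈ s41cA q := by
      have : z = (u : ℚ) * ((ℓ : ℚ) * z) + (v : ℚ) * ((N : ℚ) * z) := by
        linear_combination (-z) * huvq
      rw [this]
      exact Subring.add_mem _ (Subring.mul_mem _ (s41cA_int q u) hℓz)
        (Subring.mul_mem _ (s41cA_int q v) hNz)
    exact ⟨z, hzA, hc10⟩
  | coe j' =>
    rw [s41chc_repA_coe, Nat.cast_one, mul_one, hxy] at h10
    refine ⟨(s41cRepD ℓ i : ℚ) * y, Subring.mul_mem _ hD hy, ?_⟩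
    rw [← h10]
    ring

/-- (H-UNIP) the cocycle at an upper unipotent is unipotent. -/
theorem s41ch_unip {q : ℕ} (hq : q.Prime) {ℓ : ℕ} [Fact ℓ.Prime] (hℓq : ℓ ≠ q)
    {s : ℚ} {c : SL(2, ℚ)} (hc : c ∈ s41cG q) {i i' : OnePoint (ZMod ℓ)}
    (h : s41cRep ℓ i * ((s41cU s : SL(2, ℚ)) : Matrix (Fin 2) (Fin 2) ℚ)
        = (c : Matrix (Fin 2) (Fin 2) ℚ) * s41cRep ℓ i') :
    (c : Matrix (Fin 2) (Fin 2) ℚ).trace = 2 := by
  have hℓp : ℓ.Prime := Fact.out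
  have hℓ0 : (ℓ : ℚ) ≠ 0 := Nat.cast_ne_zero.mpr hℓp.ne_zero
  have hninv := s41chc_inv_not_mem hq hℓp hℓq
  -- entries
  have h00 : (s41cRepA ℓ i : ℚ) = c 0 0 * (s41cRepA ℓ i' : ℚ) := by
    have h2 := congrFun (congrFun h 0) 0
    rw [s41chc_mul_apply, s41chc_mul_apply, s41chc_rep_00, s41chc_rep_01, s41chc_rep_00,
      s41chc_rep_10] at h2
    have e1 : ((s41cU s : SL(2, ℚ)) : Matrix (Fin 2) (Fin 2) ℚ) 0 0 = 1 := rfl
    have e2 : ((s41cU s : SL(2, ℚ)) : Matrix (Fin 2) (Fin 2) ℚ) 1 0 = 0 := rfl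
    rw [e1, e2, mul_one, mul_zero, add_zero, mul_zero, add_zero] at h2
    exact h2
  have h10 : 0 = c 1 0 * (s41cRepA ℓ i' : ℚ) := by
    have h2 := congrFun (congrFun h 1) 0
    rw [s41chc_mul_apply, s41chc_mul_apply, s41chc_rep_10, s41chc_rep_11, s41chc_rep_00,
      s41chc_rep_10] at h2
    have e2 : ((s41cU s : SL(2, ℚ)) : Matrix (Fin 2) (Fin 2) ℚ) 1 0 = 0 := rfl
    rw [e2, zero_mul, zero_add, mul_zero, mul_zero, add_zero] at h2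
    exact h2
  have hA' : (s41cRepA ℓ i' : ℚ) ≠ 0 := by
    cases i' with
    | infty => rw [s41chc_repA_infty]; exact hℓ0
    | coe j' => rw [s41chc_repA_coe]; norm_num
  have hc10 : c 1 0 = 0 := by
    rcases mul_eq_zero.mp h10.symm with h3 | h3
    · exact h3
    · exact absurd h3 hA'
  have h11 : (s41cRepD ℓ i : ℚ) = c 1 1 * (s41cRepD ℓ i' : ℚ) := by
    have h2 := congrFun (congrFun h 1) 1
    rw [s41chc_mul_apply, s41chc_mul_apply, s41chc_rep_10, s41chc_rep_11, s41chc_rep_01,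
      s41chc_rep_11, hc10] at h2
    have e2 : ((s41cU s : SL(2, ℚ)) : Matrix (Fin 2) (Fin 2) ℚ) 1 1 = 1 := rfl
    rw [e2, zero_mul, zero_add, mul_one, zero_mul, zero_add] at h2
    exact h2
  have hdet : c 0 0 * c 1 1 = 1 := by
    have h2 := s41c_det c
    rw [hc10, mul_zero, sub_zero] at h2
    exact h2
  have hc00 : c 0 0 = 1 := by
    cases i with
    | infty =>
      cases i' with
      | infty =>
        rw [s41chc_repA_infty] at h00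
        have h3 : (ℓ : ℚ) * 1 = (ℓ : ℚ) * c 0 0 := by rw [mul_one, mul_comm]; exact h00
        exact (mul_left_cancel₀ hℓ0 h3).symm
      | coe j' =>
        exfalso
        rw [s41chc_repD_infty, s41chc_repD_coe, Nat.cast_one] at h11
        apply hninv
        have h3 : ((ℓ : ℚ))⁻¹ = c 1 1 :=
          inv_eq_of_mul_eq_one_right (by rw [mul_comm]; exact h11.symm)
        rw [h3]
        exact hc 1 1
    | coe j =>
      cases i' with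
      | infty =>
        exfalso
        rw [s41chc_repA_coe, s41chc_repA_infty, Nat.cast_one] at h00
        apply hninv
        have h3 : ((ℓ : ℚ))⁻¹ = c 0 0 :=
          inv_eq_of_mul_eq_one_right (by rw [mul_comm]; exact h00.symm)
        rw [h3]
        exact hc 0 0
      | coe j' =>
        rw [s41chc_repA_coe, s41chc_repA_coe, Nat.cast_one, mul_one] at h00
        exact h00.symm
  have hc11 : c 1 1 = 1 := by
    rw [hc00, one_mul] at hdet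
    exact hdet
  rw [Matrix.trace_fin_two]
  show c 0 0 + c 1 1 = 2
  rw [hc00, hc11]
  norm_num

end Fermat.Agent.S41
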