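import Fermat.Agent.S41.CSP.Defs

/-!
# S41, package CSP: the standard representatives of `T_ℓ`

Index set `OnePoint (ZMod ℓ)`; `s41cRep ℓ j = [[1, j], [0, ℓ]]`, `s41cRep ℓ ∞ = [[ℓ, 0], [0, 1]]`
(the same representatives as `heckeRep` of the Prelude / `s16lbRepA/B/D`), as matrices over `ℚ`;
`s41cRepU ℓ i = u(B_i) ∈ SL₂(ℤ)` is their reduction modulo `ℓ - 1`.
-/

set_option autoImplicit false

namespace Fermat.Agent.S41

open Matrix
open scoped MatrixGroups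

/-- upper left entry of the standard representative -/
def s41cRepA (ℓ : ℕ) (i : OnePoint (ZMod ℓ)) : ℕ := i.elim ℓ (fun _ => 1)
/-- upper right entry -/
def s41cRepB (ℓ : ℕ) (i : OnePoint (ZMod ℓ)) : ℕ := i.elim 0 (fun j => j.val)
/-- lower right entry -/
def s41cRepD (ℓ : ℕ) (i : OnePoint (ZMod ℓ)) : ℕ := i.elim 1 (fun _ => ℓ)

/-- the standard representative `[[A, B], [0, D]]` of determinant `ℓ` -/
def s41cRep (ℓ : ℕ) (i : OnePoint (ZMod ℓ)) : Matrix (Fin 2) (Fin 2) ℚ :=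
  !![(s41cRepA ℓ i : ℚ), (s41cRepB ℓ i : ℚ); 0, (s41cRepD ℓ i : ℚ)]

/-- the reduction of the standard representative modulo `ℓ - 1`: `u(B_i)` -/
def s41cRepU (ℓ : ℕ) (i : OnePoint (ZMod ℓ)) : SL(2, ℚ) := s41cU (s41cRepB ℓ i)

end Fermat.Agent.S41
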