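import Fermat.Agent.S41.CSP.HeckeDefs
import Fermat.Agent.S41.CSP.Core
import Fermat.Agent.S41.CSP.Gen

/-!
# S41, package CSP, row S41-CSP-HEX (helper7): `SL₂(ℤ[1/q])` permutes the `ℓ + 1` standard cosets

`s41ch_exists` : for `x ∈ G = SL₂(ℤ[1/q])` and every index `i` there are `i'` and `c ∈ G` with
`R_i x = c R_i'`.  The predicate is multiplicative in `x`; it holds for `u(s)` (`s ∈ A`) and for
`S = [[0,-1],[1,0]]`, hence for `l(s) = S⁻¹ u(-s) S`, hence for all of `G` (`s41c_G_induction`).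
Private helpers are prefixed `s41chex_`.
-/

set_option autoImplicit false

namespace Fermat.Agent.S41

open Matrix
open scoped MatrixGroups

/-- the predicate. -/
def s41chexP (q ℓ : ℕ) (x : SL(2, ℚ)) : Prop :=
  ∀ i : OnePoint (ZMod ℓ), ∃ (i' : OnePoint (ZMod ℓ)) (c : SL(2, ℚ)), c ∈ s41cG q ∧
    s41cRep ℓ i * (x : Matrix (Fin 2) (Fin 2) ℚ) = (c : Matrix (Fin 2) (Fin 2) ℚ) * s41cRep ℓ i'

theorem s41chex_one (q ℓ : ℕ) : s41chexP q ℓ 1 := by
  intro i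
  refine ⟨i, 1, Subgroup.one_mem _, ?_⟩
  rw [Matrix.SpecialLinearGroup.coe_one, Matrix.mul_one, Matrix.one_mul]

theorem s41chex_mul {q ℓ : ℕ} {x y : SL(2, ℚ)} (hx : s41chexP q ℓ x) (hy : s41chexP q ℓ y) :
    s41chexP q ℓ (x * y) := by
  intro i
  obtain ⟨i₁, c₁, hc₁, h₁⟩ := hx i
  obtain ⟨i₂, c₂, hc₂, h₂⟩ := hy i₁
  refine ⟨i₂, c₁ * c₂, Subgroup.mul_mem _ hc₁ hc₂, ?_⟩
  rw [Matrix.SpecialLinearGroup.coe_mul, Matrix.SpecialLinearGroup.coe_mul, ← Matrix.mul_assoc, h₁,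
    Matrix.mul_assoc, h₂, Matrix.mul_assoc]

/-- `A / ℓ A = ℤ / ℓ` : every `s ∈ A` is congruent to an integer modulo `ℓ A`. -/
theorem s41chex_exists_int {q : ℕ} (hq : q.Prime) {ℓ : ℕ} (hℓ : ℓ.Prime) (hℓq : ℓ ≠ q) {s : ℚ}
    (hs : s ∈ s41cA q) : ∃ (n : ℤ) (z : ℚ), z ∈ s41cA q ∧ s - n = (ℓ : ℚ) * z := by
  obtain ⟨k, m, hm⟩ := hs
  have hcop : IsCoprime ((q : ℤ) ^ k) (ℓ : ℤ) := by
    apply IsCoprime.pow_left
    rw [Int.isCoprime_iff_gcd_eq_one, Int.gcd_natCast_natCast]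
    exact (Nat.coprime_primes hq hℓ).mpr (Ne.symm hℓq)
  obtain ⟨a, b, hab⟩ := hcop
  refine ⟨m * a, s * b, Subring.mul_mem _ ⟨k, m, hm⟩ (s41cA_int q b), ?_⟩
  have hab' : (a : ℚ) * (q : ℚ) ^ k + (b : ℚ) * (ℓ : ℚ) = 1 := by
    exact_mod_cast congrArg (fun t : ℤ => (t : ℚ)) hab
  push_cast
  rw [← hm]
  linear_combination (-s) * hab'

/-- the upper unipotents. -/
theorem s41chex_U {q : ℕ} (hq : q.Prime) {ℓ : ℕ} [Fact ℓ.Prime] (hℓq : ℓ ≠ q) {s : ℚ}
    (hs : s ∈ s41cA q) : s41chexP q ℓ (s41cU s) := by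
  have hℓ : ℓ.Prime := Fact.out
  intro i
  induction i using OnePoint.rec with
  | infty =>
    refine ⟨OnePoint.infty, s41cU ((ℓ : ℚ) * s),
      s41cU_mem_G (Subring.mul_mem _ (s41cA_nat q ℓ) hs), ?_⟩
    ext a b
    fin_cases a <;> fin_cases b <;>
      simp [s41cRep, s41cRepA, s41cRepB, s41cRepD, Matrix.mul_apply, Fin.sum_univ_two, s41cU,
        -ZMod.natCast_val]
  | coe j =>
    obtain ⟨n, z, hz, hnz⟩ := s41chex_exists_int hq hℓ hℓq hs
    set j' : ZMod ℓ := ((n + (j.val : ℤ) : ℤ) : ZMod ℓ) with hj'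
    have hdvd : (ℓ : ℤ) ∣ n + (j.val : ℤ) - (j'.val : ℤ) := by
      rw [← ZMod.intCast_zmod_eq_zero_iff_dvd]
      push_cast
      rw [ZMod.natCast_zmod_val, ZMod.natCast_zmod_val, hj']
      push_cast
      rw [ZMod.natCast_zmod_val]
      ring
    obtain ⟨d, hd⟩ := hdvd
    have hd' : (n : ℚ) + (j.val : ℚ) - (j'.val : ℚ) = (ℓ : ℚ) * (d : ℚ) := by
      exact_mod_cast congrArg (fun t : ℤ => (t : ℚ)) hd
    refine ⟨(j' : OnePoint (ZMod ℓ)), s41cU (z + d),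
      s41cU_mem_G (Subring.add_mem _ hz (s41cA_int q d)), ?_⟩
    ext a b
    fin_cases a <;> fin_cases b <;>
      simp [s41cRep, s41cRepA, s41cRepB, s41cRepD, Matrix.mul_apply, Fin.sum_univ_two, s41cU,
        -ZMod.natCast_val]
    linear_combination hnz + hd'

/-- `S = [[0, -1], [1, 0]]`. -/
def s41chexS : SL(2, ℚ) := ⟨!![0, -1; 1, 0], by simp [Matrix.det_fin_two]⟩

@[simp] theorem s41chexS_00 : s41chexS 0 0 = 0 := rfl
@[simp] theorem s41chexS_01 : s41chexS 0 1 = -1 := rfl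
@[simp] theorem s41chexS_10 : s41chexS 1 0 = 1 := rfl
@[simp] theorem s41chexS_11 : s41chexS 1 1 = 0 := rfl

theorem s41chexS_mem (q : ℕ) : s41chexS ∈ s41cG q := by
  intro i j
  fin_cases i <;> fin_cases j
  · exact Subring.zero_mem _
  · exact Subring.neg_mem _ (Subring.one_mem _)
  · exact Subring.one_mem _
  · exact Subring.zero_mem _

/-- the Weyl element. -/
theorem s41chex_S (q : ℕ) {ℓ : ℕ} [Fact ℓ.Prime] : s41chexP q ℓ s41chexS := by
  have hℓ : ℓ.Prime := Fact.out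
  intro i
  induction i using OnePoint.rec with
  | infty =>
    refine ⟨((0 : ZMod ℓ) : OnePoint (ZMod ℓ)), s41chexS, s41chexS_mem q, ?_⟩
    ext a b
    fin_cases a <;> fin_cases b <;>
      simp [s41cRep, s41cRepA, s41cRepB, s41cRepD, Matrix.mul_apply, Fin.sum_univ_two, s41chexS,
          -ZMod.natCast_val]
  | coe j =>
    by_cases hj : j = 0
    · subst hj
      refine ⟨OnePoint.infty, s41chexS, s41chexS_mem q, ?_⟩
      ext a b
      fin_cases a <;> fin_cases b <;>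
        simp [s41cRep, s41cRepA, s41cRepB, s41cRepD, Matrix.mul_apply, Fin.sum_univ_two, s41chexS,
          -ZMod.natCast_val]
    · set j' : ZMod ℓ := -j⁻¹ with hj'
      have hdvd : (ℓ : ℤ) ∣ (j.val : ℤ) * (j'.val : ℤ) + 1 := by
        rw [← ZMod.intCast_zmod_eq_zero_iff_dvd]
        push_cast
        rw [ZMod.natCast_zmod_val, ZMod.natCast_zmod_val, hj', mul_neg, mul_inv_cancel₀ hj]
        ring
      obtain ⟨e, he⟩ := hdvd
      have he' : (j.val : ℚ) * (j'.val : ℚ) + 1 = (ℓ : ℚ) * (e : ℚ) := by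
        exact_mod_cast congrArg (fun t : ℤ => (t : ℚ)) he
      refine ⟨(j' : OnePoint (ZMod ℓ)),
        ⟨!![(j.val : ℚ), -(e : ℚ); (ℓ : ℚ), -(j'.val : ℚ)], ?_⟩, ?_, ?_⟩
      · rw [Matrix.det_fin_two_of]
        linear_combination -he'
      · intro a b
        fin_cases a <;> fin_cases b
        · exact s41cA_nat q _
        · exact Subring.neg_mem _ (s41cA_int q e)
        · exact s41cA_nat q _
        · exact Subring.neg_mem _ (s41cA_nat q _)
      · ext a b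
        fin_cases a <;> fin_cases b <;>
          simp [s41cRep, s41cRepA, s41cRepB, s41cRepD, Matrix.mul_apply, Fin.sum_univ_two, s41chexS,
          -ZMod.natCast_val]
        · linear_combination -he'
        · ring

theorem s41chexS_inv : s41chexS⁻¹ = s41chexS * s41chexS * s41chexS := by
  apply s41c_ext <;>
    simp [s41c_inv_00, s41c_inv_01, s41c_inv_10, s41c_inv_11, s41c_mul_apply]

theorem s41chex_L_eq (s : ℚ) : s41cL s = s41chexS⁻¹ * s41cU (-s) * s41chexS := by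
  apply s41c_ext <;>
    simp [s41c_inv_00, s41c_inv_01, s41c_inv_10, s41c_inv_11, s41c_mul_apply]

/-- the lower unipotents. -/
theorem s41chex_L {q : ℕ} (hq : q.Prime) {ℓ : ℕ} [Fact ℓ.Prime] (hℓq : ℓ ≠ q) {s : ℚ}
    (hs : s ∈ s41cA q) : s41chexP q ℓ (s41cL s) := by
  rw [s41chex_L_eq, s41chexS_inv]
  exact s41chex_mul (s41chex_mul (s41chex_mul (s41chex_mul (s41chex_S q) (s41chex_S q))
    (s41chex_S q)) (s41chex_U hq hℓq (Subring.neg_mem _ hs))) (s41chex_S q)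

/-- (H-EX) `G = SL₂(ℤ[1/q])` permutes the `ℓ + 1` standard cosets. -/
theorem s41ch_exists {q : ℕ} (hq : q.Prime) {ℓ : ℕ} [Fact ℓ.Prime] (hℓq : ℓ ≠ q)
    {x : SL(2, ℚ)} (hx : x ∈ s41cG q) (i : OnePoint (ZMod ℓ)) :
    ∃ (i' : OnePoint (ZMod ℓ)) (c : SL(2, ℚ)), c ∈ s41cG q ∧
      s41cRep ℓ i * (x : Matrix (Fin 2) (Fin 2) ℚ)
        = (c : Matrix (Fin 2) (Fin 2) ℚ) * s41cRep ℓ i' := by
  have h : s41chexP q ℓ x := by
    refine s41c_G_induction hq (s41chexP q ℓ) (s41chex_one q ℓ) ?_ ?_ x hx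
    · intro s hs y _ hy
      exact s41chex_mul (s41chex_U hq hℓq hs) hy
    · intro s hs y _ hy
      exact s41chex_mul (s41chex_L hq hℓq hs) hy
  exact h i

end Fermat.Agent.S41
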