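import Fermat.Agent.S41.CSP.HeckeStd

/-!
# S41, package CSP: the Hecke-square identity `T_ℓ (T_ℓ Φ) = (ℓ + 1)² Φ`

For EVERY prime `ℓ ∤ M* q` (no congruence condition): `s41c_hecke_sq`.  Proof: apply the abstract
coset form `s41c_hecke_abs` to the index set `I × I`, the representatives `R_i' R_i` (determinant
`ℓ²`), the composite cocycle, and elements `D_(i,i') ∈ SL₂(ℤ) ∩ Γ₀(M*)` with
`D ≡ ℓ⁻¹ R_i' R_i mod M*` (explicit Bezout lift `s41chq_lift`).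
-/

set_option autoImplicit false
namespace Fermat.Agent.S41
open Matrix
open scoped MatrixGroups

/-- explicit lift of an upper triangular matrix mod `m` of determinant `1` to `SL₂(ℤ)` -/
theorem s41chq_lift {m : ℕ} (α β δ : ℤ) (h : (m : ℤ) ∣ α * δ - 1) :
    ∃ a b c d : ℤ, a * d - b * c = 1 ∧ (m : ℤ) ∣ a - α ∧ (m : ℤ) ∣ b - β ∧ (m : ℤ) ∣ c ∧
      (m : ℤ) ∣ d - δ := by
  obtain ⟨k, hk⟩ := h
  have hcop : IsCoprime α (m : ℤ) := ⟨δ, -k, by linear_combination hk⟩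
  obtain ⟨u, v, huv⟩ := hcop
  refine ⟨α, β + m * (-v * (β - k)), m, δ + m * (u * (β - k)), ?_, ?_, ?_, dvd_refl _, ?_⟩
  · linear_combination hk + (m : ℤ) * (β - k) * huv
  · simp
  · exact ⟨-v * (β - k), by ring⟩
  · exact ⟨u * (β - k), by ring⟩

/-- an element of `SL(2, ℚ)` with integer entries -/
def s41chqMk (a b c d : ℤ) (h : a * d - b * c = 1) : SL(2, ℚ) :=
  ⟨!![(a : ℚ), (b : ℚ); (c : ℚ), (d : ℚ)], by
    rw [Matrix.det_fin_two]; simp only [Matrix.of_apply, Matrix.cons_val', Matrix.cons_val_zero,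
      Matrix.cons_val_one, Matrix.empty_val', Matrix.cons_val_fin_one]
    exact_mod_cast h⟩

theorem s41chqMk_mem_G (q : ℕ) (a b c d : ℤ) (h : a * d - b * c = 1) :
    s41chqMk a b c d h ∈ s41cG q := by
  intro i j
  fin_cases i <;> fin_cases j <;> exact s41cA_int q _

/-- general congruence lemma: `P x = c P'`, `λ P ≡ D`, `λ P' ≡ D'` mod `m` ⟹
`c D' x⁻¹ D⁻¹ ∈ Γ_A(m)`. -/
theorem s41chq_cong {q m : ℕ} {P P' : Matrix (Fin 2) (Fin 2) ℚ} {D D' x c : SL(2, ℚ)} (lam : ℚ)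
    (hD : D ∈ s41cG q) (hD' : D' ∈ s41cG q) (hx : x ∈ s41cG q) (hc : c ∈ s41cG q)
    (hP : s41cMatDvd q m (lam • P - (D : Matrix (Fin 2) (Fin 2) ℚ)))
    (hP' : s41cMatDvd q m (lam • P' - (D' : Matrix (Fin 2) (Fin 2) ℚ)))
    (h : P * (x : Matrix (Fin 2) (Fin 2) ℚ) = (c : Matrix (Fin 2) (Fin 2) ℚ) * P') :
    c * D' * x⁻¹ * D⁻¹ ∈ s41cGam q m := by
  rw [s41cGam_iff]
  refine ⟨(s41cG q).mul_mem ((s41cG q).mul_mem ((s41cG q).mul_mem hc hD') ((s41cG q).inv_mem hx))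
    ((s41cG q).inv_mem hD), ?_⟩
  have hxx : (x : Matrix (Fin 2) (Fin 2) ℚ) * ((x⁻¹ : SL(2, ℚ)) : Matrix (Fin 2) (Fin 2) ℚ) = 1 := by
    rw [← Matrix.SpecialLinearGroup.coe_mul, mul_inv_cancel, Matrix.SpecialLinearGroup.coe_one]
  have hDD : (D : Matrix (Fin 2) (Fin 2) ℚ) * ((D⁻¹ : SL(2, ℚ)) : Matrix (Fin 2) (Fin 2) ℚ) = 1 := by
    rw [← Matrix.SpecialLinearGroup.coe_mul, mul_inv_cancel, Matrix.SpecialLinearGroup.coe_one]
  -- `Z := c D' - D x = c (D' - λ P') + (λ P - D) x`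
  have hZ : s41cMatDvd q m ((c : Matrix (Fin 2) (Fin 2) ℚ) * (D' : Matrix (Fin 2) (Fin 2) ℚ)
      - (D : Matrix (Fin 2) (Fin 2) ℚ) * (x : Matrix (Fin 2) (Fin 2) ℚ)) := by
    have e : (c : Matrix (Fin 2) (Fin 2) ℚ) * (D' : Matrix (Fin 2) (Fin 2) ℚ)
        - (D : Matrix (Fin 2) (Fin 2) ℚ) * (x : Matrix (Fin 2) (Fin 2) ℚ)
        = -((c : Matrix (Fin 2) (Fin 2) ℚ) * (lam • P' - (D' : Matrix (Fin 2) (Fin 2) ℚ)))
          + (lam • P - (D : Matrix (Fin 2) (Fin 2) ℚ)) * (x : Matrix (Fin 2) (Fin 2) ℚ) := by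
      rw [Matrix.mul_sub, Matrix.sub_mul, Matrix.mul_smul, Matrix.smul_mul, h]
      abel
    rw [e]
    exact s41cMatDvd_add (s41cMatDvd_neg (s41cMatDvd_mul_left hc hP')) (s41cMatDvd_mul_right hP hx)
  have e2 : ((c * D' * x⁻¹ * D⁻¹ : SL(2, ℚ)) : Matrix (Fin 2) (Fin 2) ℚ) - 1
      = ((c : Matrix (Fin 2) (Fin 2) ℚ) * (D' : Matrix (Fin 2) (Fin 2) ℚ)
        - (D : Matrix (Fin 2) (Fin 2) ℚ) * (x : Matrix (Fin 2) (Fin 2) ℚ))
        * (((x⁻¹ : SL(2, ℚ)) : Matrix (Fin 2) (Fin 2) ℚ)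
          * ((D⁻¹ : SL(2, ℚ)) : Matrix (Fin 2) (Fin 2) ℚ)) := by
    simp only [Matrix.SpecialLinearGroup.coe_mul]
    rw [Matrix.sub_mul, Matrix.mul_assoc (D : Matrix (Fin 2) (Fin 2) ℚ), ← Matrix.mul_assoc
      (x : Matrix (Fin 2) (Fin 2) ℚ), hxx, Matrix.one_mul, hDD]
    simp only [Matrix.mul_assoc]
  rw [e2]
  have hxD : ∀ i j, (((x⁻¹ : SL(2, ℚ)) : Matrix (Fin 2) (Fin 2) ℚ)
      * ((D⁻¹ : SL(2, ℚ)) : Matrix (Fin 2) (Fin 2) ℚ)) i j ∈ s41cA q := by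
    have := (s41cG q).mul_mem ((s41cG q).inv_mem hx) ((s41cG q).inv_mem hD)
    intro i j
    have h2 := this i j
    rwa [Matrix.SpecialLinearGroup.coe_mul] at h2
  exact s41cMatDvd_mul_right hZ hxD

section sq

variable {q : ℕ} {ℓ : ℕ} [Fact ℓ.Prime]

omit [Fact ℓ.Prime] in
theorem s41cRep_AD (i : OnePoint (ZMod ℓ)) : s41cRepA ℓ i * s41cRepD ℓ i = ℓ := by
  induction i using OnePoint.rec with
  | infty => simp [s41cRepA, s41cRepD]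
  | coe j => simp [s41cRepA, s41cRepD]

/-- representatives of `T_ℓ ∘ T_ℓ` -/
def s41chqRep (ℓ : ℕ) (k : OnePoint (ZMod ℓ) × OnePoint (ZMod ℓ)) : Matrix (Fin 2) (Fin 2) ℚ :=
  s41cRep ℓ k.2 * s41cRep ℓ k.1

omit [Fact ℓ.Prime] in
theorem s41chqRep_eq (k : OnePoint (ZMod ℓ) × OnePoint (ZMod ℓ)) :
    s41chqRep ℓ k = !![(s41cRepA ℓ k.2 : ℚ) * s41cRepA ℓ k.1,
      (s41cRepA ℓ k.2 : ℚ) * s41cRepB ℓ k.1 + s41cRepB ℓ k.2 * s41cRepD ℓ k.1;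
      0, (s41cRepD ℓ k.2 : ℚ) * s41cRepD ℓ k.1] := by
  unfold s41chqRep s41cRep
  ext i j
  fin_cases i <;> fin_cases j <;> simp [Matrix.mul_apply, Fin.sum_univ_two]

theorem s41cDvd_of_int_dvd {q m : ℕ} {n : ℤ} (h : (m : ℤ) ∣ n) : s41cDvd q m (n : ℚ) := by
  obtain ⟨k, rfl⟩ := h
  exact ⟨(k : ℚ), s41cA_int q k, by push_cast; ring⟩

theorem s41chq_exists_D {m : ℕ} {lam : ℤ} (hlam : (m : ℤ) ∣ lam * ℓ - 1)
    (k : OnePoint (ZMod ℓ) × OnePoint (ZMod ℓ)) :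
    ∃ D : SL(2, ℚ), D ∈ s41cG q ∧ s41cDvd q m (D 1 0) ∧
      s41cMatDvd q m ((lam : ℚ) • s41chqRep ℓ k - (D : Matrix (Fin 2) (Fin 2) ℚ)) := by
  have hdet : (m : ℤ) ∣ (lam * ((s41cRepA ℓ k.2 : ℤ) * s41cRepA ℓ k.1))
      * (lam * ((s41cRepD ℓ k.2 : ℤ) * s41cRepD ℓ k.1)) - 1 := by
    have h1 : ((s41cRepA ℓ k.1 : ℤ) * s41cRepD ℓ k.1) = ℓ := by exact_mod_cast s41cRep_AD k.1
    have h2 : ((s41cRepA ℓ k.2 : ℤ) * s41cRepD ℓ k.2) = ℓ := by exact_mod_cast s41cRep_AD k.2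
    have e : (lam * ((s41cRepA ℓ k.2 : ℤ) * s41cRepA ℓ k.1))
        * (lam * ((s41cRepD ℓ k.2 : ℤ) * s41cRepD ℓ k.1)) - 1
        = (lam * ℓ - 1) * (lam * ℓ + 1) := by
      linear_combination (lam ^ 2 * ((s41cRepA ℓ k.2 : ℤ) * s41cRepD ℓ k.2)) * h1
        + (lam ^ 2 * ℓ) * h2
    rw [e]
    exact Dvd.dvd.mul_right hlam _
  obtain ⟨a, b, c, d, hdet1, ha, hb, hc, hd⟩ := s41chq_lift (m := m) _
    (lam * ((s41cRepA ℓ k.2 : ℤ) * s41cRepB ℓ k.1 + s41cRepB ℓ k.2 * s41cRepD ℓ k.1)) _ hdet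
  refine ⟨s41chqMk a b c d hdet1, s41chqMk_mem_G q a b c d hdet1, s41cDvd_of_int_dvd hc, ?_⟩
  rw [s41chqRep_eq]
  intro i j
  fin_cases i <;> fin_cases j
  · have := s41cDvd_neg (s41cDvd_of_int_dvd (q := q) ha)
    convert this using 1
    simp [s41chqMk]
  · have := s41cDvd_neg (s41cDvd_of_int_dvd (q := q) hb)
    convert this using 1
    simp [s41chqMk]
  · have := s41cDvd_neg (s41cDvd_of_int_dvd (q := q) hc)
    convert this using 1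
    simp [s41chqMk]
  · have := s41cDvd_neg (s41cDvd_of_int_dvd (q := q) hd)
    convert this using 1
    simp [s41chqMk]

variable (hq : q.Prime) (hℓq : ℓ ≠ q)

/-- the composite cocycle -/
noncomputable def s41chqC (y : SL(2, ℚ)) (k : OnePoint (ZMod ℓ) × OnePoint (ZMod ℓ)) : SL(2, ℚ) :=
  s41chC hq hℓq (s41chC hq hℓq y k.1) k.2

/-- the composite action -/
noncomputable def s41chqS (y : SL(2, ℚ)) (k : OnePoint (ZMod ℓ) × OnePoint (ZMod ℓ)) :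
    OnePoint (ZMod ℓ) × OnePoint (ZMod ℓ) :=
  (s41chS hq hℓq y k.1, s41chS hq hℓq (s41chC hq hℓq y k.1) k.2)

theorem s41chqC_spec {y : SL(2, ℚ)} (hy : y ∈ s41cG q)
    (k : OnePoint (ZMod ℓ) × OnePoint (ZMod ℓ)) :
    s41chqC hq hℓq y k ∈ s41cG q ∧
      s41chqRep ℓ k * (y : Matrix (Fin 2) (Fin 2) ℚ)
        = (s41chqC hq hℓq y k : Matrix (Fin 2) (Fin 2) ℚ) * s41chqRep ℓ (s41chqS hq hℓq y k) := by
  obtain ⟨h1, h2⟩ := s41chC_spec hq hℓq hy k.1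
  obtain ⟨h3, h4⟩ := s41chC_spec hq hℓq h1 k.2
  refine ⟨h3, ?_⟩
  unfold s41chqRep s41chqC s41chqS
  rw [Matrix.mul_assoc, h2, ← Matrix.mul_assoc, h4, Matrix.mul_assoc]

theorem s41chqC_mul {y z : SL(2, ℚ)} (hy : y ∈ s41cG q) (hz : z ∈ s41cG q)
    (k : OnePoint (ZMod ℓ) × OnePoint (ZMod ℓ)) :
    s41chqS hq hℓq (y * z) k = s41chqS hq hℓq z (s41chqS hq hℓq y k) ∧
      s41chqC hq hℓq (y * z) k = s41chqC hq hℓq y k * s41chqC hq hℓq z (s41chqS hq hℓq y k) := by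
  obtain ⟨e1, e2⟩ := s41chC_mul hq hℓq hy hz k.1
  have hy1 := (s41chC_spec hq hℓq hy k.1).1
  have hz1 := (s41chC_spec hq hℓq hz (s41chS hq hℓq y k.1)).1
  obtain ⟨e3, e4⟩ := s41chC_mul hq hℓq hy1 hz1 k.2
  unfold s41chqS s41chqC
  simp only [e1, e2, e3, e4, and_self]

theorem s41chqS_bij {y : SL(2, ℚ)} (hy : y ∈ s41cG q) :
    Function.Bijective (s41chqS hq hℓq y) := by
  have : NeZero ℓ := ⟨(Fact.out : ℓ.Prime).ne_zero⟩
  have : Finite (OnePoint (ZMod ℓ)) := inferInstanceAs (Finite (Option (ZMod ℓ)))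
  rw [← Finite.injective_iff_bijective]
  rintro ⟨i, i'⟩ ⟨j, j'⟩ h
  unfold s41chqS at h
  simp only [Prod.mk.injEq] at h
  obtain ⟨h1, h2⟩ := h
  have hij := (s41chS_bij hq hℓq hy).1 h1
  subst hij
  have := (s41chS_bij hq hℓq (s41chC_spec hq hℓq hy i).1).1 h2
  rw [this]

end sq

/-- **Hecke-square**: `T_ℓ (T_ℓ Φ) = (ℓ + 1)² Φ` for every prime `ℓ ∤ M* q`. -/
theorem s41c_hecke_sq {q : ℕ} (hq : q.Prime) {M N : ℕ} (hM : S41cAdm q M) (hNM : N ∣ M)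
    {𝔄 : Type*} [AddCommGroup 𝔄] {Φ : SL(2, ℚ) → 𝔄} (H : S41cHom q N Φ)
    {ℓ : ℕ} [Fact ℓ.Prime] (hℓq : ℓ ≠ q) (hℓM : Nat.Coprime ℓ (s41cStar M))
    {x : SL(2, ℚ)} (hx : x ∈ s41cDelta q N)
    (σ : OnePoint (ZMod ℓ) → OnePoint (ZMod ℓ)) (c : OnePoint (ZMod ℓ) → SL(2, ℚ))
    (hcG : ∀ i, c i ∈ s41cG q)
    (hc : ∀ i, s41cRep ℓ i * (x : Matrix (Fin 2) (Fin 2) ℚ)
      = (c i : Matrix (Fin 2) (Fin 2) ℚ) * s41cRep ℓ (σ i))
    (σ₂ : OnePoint (ZMod ℓ) → OnePoint (ZMod ℓ) → OnePoint (ZMod ℓ))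
    (c₂ : OnePoint (ZMod ℓ) → OnePoint (ZMod ℓ) → SL(2, ℚ))
    (hc₂G : ∀ i i', c₂ i i' ∈ s41cG q)
    (hc₂ : ∀ i i', s41cRep ℓ i' * (c i : Matrix (Fin 2) (Fin 2) ℚ)
      = (c₂ i i' : Matrix (Fin 2) (Fin 2) ℚ) * s41cRep ℓ (σ₂ i i')) :
    ∑ i, ∑ i', Φ (c₂ i i') = (ℓ + 1) ^ 2 • Φ x := by
  have hℓ : ℓ.Prime := Fact.out
  obtain ⟨mst, hmst⟩ := s41cStar_eq M
  have hNMs : N ∣ s41cStar M := hNM.trans ⟨mst, hmst⟩
  have hℓN : Nat.Coprime ℓ N := Nat.Coprime.coprime_dvd_right hNMs hℓM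
  -- `λ`
  obtain ⟨lam, hlam⟩ : ∃ lam : ℤ, (s41cStar M : ℤ) ∣ lam * ℓ - 1 := by
    obtain ⟨u, v, huv⟩ := Nat.isCoprime_iff_coprime.mpr hℓM
    exact ⟨u, -v, by linear_combination huv⟩
  have hcard : Fintype.card (OnePoint (ZMod ℓ) × OnePoint (ZMod ℓ)) = (ℓ + 1) ^ 2 := by
    have : NeZero ℓ := ⟨hℓ.ne_zero⟩
    have h1 : Fintype.card (OnePoint (ZMod ℓ)) = ℓ + 1 := by
      show Fintype.card (Option (ZMod ℓ)) = ℓ + 1
      rw [Fintype.card_option, ZMod.card]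
    rw [Fintype.card_prod, h1, sq]
  choose D hDG hD10 hDcong using fun k => s41chq_exists_D (q := q) (ℓ := ℓ) hlam k
  have hΔ1 : ∀ {y : SL(2, ℚ)}, y ∈ s41cDelta q N → ∀ i, s41chC hq hℓq y i ∈ s41cDelta q N :=
    fun hy i => s41ch_delta hℓN hy (s41chC_spec hq hℓq hy.1 i).1 (s41chC_spec hq hℓq hy.1 i).2
  have key := s41c_hecke_abs hq hM hNM H (s41chqC hq hℓq) (s41chqS hq hℓq) D
    (fun y hy => s41chqS_bij hq hℓq hy)
    (fun y hy k => (s41chqC_spec hq hℓq hy k).1)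
    (fun y hy k => hΔ1 (hΔ1 hy k.1) k.2)
    (fun y hy z hz k => (s41chqC_mul hq hℓq hy hz k).2)
    (fun y hy z hz k => (s41chqC_mul hq hℓq hy hz k).1)
    (fun k => ⟨hDG k, s41cDvd_of_dvd hNMs (hD10 k)⟩)
    (fun y hy k => s41chq_cong (lam : ℚ) (hDG k) (hDG _) hy (s41chqC_spec hq hℓq hy k).1
      (hDcong k) (hDcong _) (s41chqC_spec hq hℓq hy k).2)
    (fun k => by
      have hU : s41cU 1 ∈ s41cDelta q N := s41cU_mem_Delta (Subring.one_mem _)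
      have hs := s41chC_spec hq hℓq hU.1 k.1
      have htr := s41ch_unip hq hℓq hs.1 hs.2
      -- `c₁ := chC (u 1) k.1` is upper unipotent
      have h10 : (s41chC hq hℓq (s41cU 1) k.1) 1 0 = 0 := by
        have e := congrFun (congrFun hs.2 1) 0
        simp only [Matrix.mul_apply, Fin.sum_univ_two, s41cRep, Matrix.of_apply, Matrix.cons_val',
          Matrix.cons_val_zero, Matrix.cons_val_one, Matrix.empty_val', Matrix.cons_val_fin_one,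
          s41cU_00, s41cU_10, mul_zero, add_zero, mul_one] at e
        have hA : (s41cRepA ℓ (s41chS hq hℓq (s41cU 1) k.1) : ℚ) ≠ 0 := by
          have := s41cRep_AD (s41chS hq hℓq (s41cU 1) k.1)
          intro h0
          have h0' : s41cRepA ℓ (s41chS hq hℓq (s41cU 1) k.1) = 0 := by exact_mod_cast h0
          rw [h0', zero_mul] at this
          exact hℓ.ne_zero this.symm
        rcases mul_eq_zero.mp e.symm with h | h
        · exact h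
        · exact absurd h hA
      have hdet := s41c_det (s41chC hq hℓq (s41cU 1) k.1)
      rw [Matrix.trace_fin_two] at htr
      rw [h10, mul_zero, sub_zero] at hdet
      have h00 : (s41chC hq hℓq (s41cU 1) k.1) 0 0 = 1 := by
        have : ((s41chC hq hℓq (s41cU 1) k.1) 0 0 - 1) ^ 2 = 0 := by
          linear_combination
            ((s41chC hq hℓq (s41cU 1) k.1) 0 0) * htr - hdet
        have := pow_eq_zero_iff (two_ne_zero) |>.mp this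
        linarith
      have h11 : (s41chC hq hℓq (s41cU 1) k.1) 1 1 = 1 := by
        rw [h00] at htr; linarith
      have hc1 : s41chC hq hℓq (s41cU 1) k.1 = s41cU ((s41chC hq hℓq (s41cU 1) k.1) 0 1) := by
        apply s41c_ext <;> simp [h00, h10, h11]
      have hU2 : s41chC hq hℓq (s41cU 1) k.1 ∈ s41cDelta q N := hΔ1 hU k.1
      have hs2 := s41chC_spec hq hℓq hs.1 k.2
      have htr2 : ((s41chC hq hℓq (s41chC hq hℓq (s41cU 1) k.1) k.2 : SL(2, ℚ)) :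
          Matrix (Fin 2) (Fin 2) ℚ).trace = 2 := by
        have h2 := hs2.2
        rw [hc1] at h2
        have := s41ch_unip hq hℓq (by rw [← hc1]; exact hs2.1) h2
        rw [← hc1] at this
        exact this
      exact H.unip _ (hΔ1 hU2 k.2) htr2)
    x hx
  rw [hcard, Fintype.sum_prod_type] at key
  have e1 : ∀ i, c i = s41chC hq hℓq x i := fun i =>
    ((s41chC_unique hq hℓq hx.1 (hcG i) (hc i)).2).symm
  have e2 : ∀ i i', c₂ i i' = s41chqC hq hℓq x (i, i') := fun i i' => by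
    have := (s41chC_unique hq hℓq (hcG i) (hc₂G i i') (hc₂ i i')).2
    rw [e1 i] at this
    exact this.symm
  simp only [e2]
  exact key

end Fermat.Agent.S41
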