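import Mathlib
import Fermat.Agent.S41.CSP.HeckeDefs

/-!
# S41, package CSP, row H-UN : the standard cosets of `T_ℓ` are distinct modulo `SL₂(ℤ[1/q])`
-/

set_option autoImplicit false

namespace Fermat.Agent.S41

open Matrix
open scoped MatrixGroups

/-- `n / ℓ ∈ ℤ[1/q]` with `ℓ ≠ q` primes forces `ℓ ∣ n`. -/
theorem s41chu_dvd_of_div_mem {q : ℕ} (hq : q.Prime) {ℓ : ℕ} (hℓ : ℓ.Prime) (hℓq : ℓ ≠ q)
    {n : ℤ} {y : ℚ} (hy : y ∈ s41cA q) (hn : y * (ℓ : ℚ) = (n : ℚ)) : (ℓ : ℤ) ∣ n := by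
  obtain ⟨k, m, hkm⟩ := hy
  have h1 : (n : ℚ) * (q : ℚ) ^ k = (m : ℚ) * (ℓ : ℚ) := by
    rw [← hn, ← hkm]
    ring
  have h2 : n * (q : ℤ) ^ k = m * (ℓ : ℤ) := by exact_mod_cast h1
  have hℓp : Prime (ℓ : ℤ) := Nat.prime_iff_prime_int.mp hℓ
  have h3 : (ℓ : ℤ) ∣ n * (q : ℤ) ^ k := ⟨m, by rw [h2, mul_comm]⟩
  rcases hℓp.dvd_or_dvd h3 with h | h
  · exact h
  · exfalso
    have h4 : (ℓ : ℤ) ∣ (q : ℤ) := hℓp.dvd_of_dvd_pow h
    have h5 : ℓ ∣ q := Int.natCast_dvd_natCast.mp h4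
    exact hℓq ((Nat.prime_dvd_prime_iff_eq hℓ hq).mp h5)

/-- (H-UN) the standard cosets are distinct modulo `G`. -/
theorem s41ch_unique {q : ℕ} (hq : q.Prime) {ℓ : ℕ} [Fact ℓ.Prime] (hℓq : ℓ ≠ q)
    {i i' : OnePoint (ZMod ℓ)} {c : SL(2, ℚ)} (hc : c ∈ s41cG q)
    (h : s41cRep ℓ i = (c : Matrix (Fin 2) (Fin 2) ℚ) * s41cRep ℓ i') : i = i' := by
  have hℓ : ℓ.Prime := Fact.out
  have hℓ0 : (ℓ : ℚ) ≠ 0 := Nat.cast_ne_zero.mpr hℓ.ne_zero
  have h00 := congrFun (congrFun h 0) 0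
  have h01 := congrFun (congrFun h 0) 1
  have h10 := congrFun (congrFun h 1) 0
  have h11 := congrFun (congrFun h 1) 1
  simp only [s41cRep, Matrix.mul_apply, Fin.sum_univ_two, Matrix.of_apply, Matrix.cons_val',
    Matrix.cons_val_zero, Matrix.cons_val_one, Matrix.empty_val', Matrix.cons_val_fin_one,
    mul_zero, add_zero] at h00 h01 h10 h11
  induction i using OnePoint.rec with
  | infty =>
    induction i' using OnePoint.rec with
    | infty => rfl
    | coe j' =>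
      exfalso
      simp only [s41cRepA, s41cRepB, s41cRepD, OnePoint.elim_infty, OnePoint.elim_some,
        Nat.cast_one, mul_one] at h00 h01 h10 h11
      have hc10 : c 1 0 = 0 := h10.symm
      rw [hc10, zero_mul, zero_add] at h11
      have hd := s41chu_dvd_of_div_mem hq hℓ hℓq (hc 1 1) (n := 1) (by rw [← h11]; simp)
      have := Int.le_of_dvd one_pos hd
      have := hℓ.two_le
      omega
  | coe j =>
    induction i' using OnePoint.rec with
    | infty =>
      exfalso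
      simp only [s41cRepA, s41cRepB, s41cRepD, OnePoint.elim_infty, OnePoint.elim_some,
        Nat.cast_one, mul_one] at h00 h01 h10 h11
      have hd := s41chu_dvd_of_div_mem hq hℓ hℓq (hc 0 0) (n := 1) (by rw [← h00]; simp)
      have := Int.le_of_dvd one_pos hd
      have := hℓ.two_le
      omega
    | coe j' =>
      simp only [s41cRepA, s41cRepB, s41cRepD, OnePoint.elim_some,
        Nat.cast_one, mul_one] at h00 h01 h10 h11
      have hc00 : c 0 0 = 1 := h00.symm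
      rw [hc00, one_mul] at h01
      have hd := s41chu_dvd_of_div_mem hq hℓ hℓq (hc 0 1)
        (n := (j.val : ℤ) - (j'.val : ℤ)) (by push_cast; linarith)
      have h2 : ((j.val : ℤ) : ZMod ℓ) = ((j'.val : ℤ) : ZMod ℓ) := by
        rw [← sub_eq_zero, ← Int.cast_sub]
        exact (ZMod.intCast_zmod_eq_zero_iff_dvd _ _).mpr hd
      have h3 : j = j' := by
        have := h2
        push_cast at this
        rwa [ZMod.natCast_zmod_val, ZMod.natCast_zmod_val] at this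
      rw [h3]

end Fermat.Agent.S41
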