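import Fermat.Agent.S41.CSP.Hecke
import Fermat.Agent.S41.CSP.HeckeEx
import Fermat.Agent.S41.CSP.HeckeUn
import Fermat.Agent.S41.CSP.HeckeCong

/-!
# S41, package CSP: (B) for the standard representatives, `ℓ ≡ 1 mod M*`

`s41c_hecke_std`: `Φ` additive on `Δ_N` killing its trace-2 elements, `M` admissible, `N ∣ M`,
`ℓ ≠ q` prime with `ℓ ≡ 1 mod M*`; if `R_i x = c_i R_(σ i)` for the standard representatives
`R_i = s41cRep ℓ i` of `T_ℓ` (`x ∈ Δ_N`, `c_i ∈ SL₂(ℤ[1/q])`) then `∑ i, Φ (c_i) = (ℓ + 1) • Φ x`.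

Leaves: `HeckeEx` (helper7), `HeckeUn` (helper13), `HeckeCong` (helper23).
-/

set_option autoImplicit false
namespace Fermat.Agent.S41
open Matrix
open scoped MatrixGroups

section

variable {q : ℕ} {ℓ : ℕ} [Fact ℓ.Prime]

theorem s41cRep_det (i : OnePoint (ZMod ℓ)) : (s41cRep ℓ i).det = ℓ := by
  induction i using OnePoint.rec with
  | infty => simp [s41cRep, s41cRepA, s41cRepB, s41cRepD, Matrix.det_fin_two]
  | coe j => simp [s41cRep, s41cRepA, s41cRepB, s41cRepD, Matrix.det_fin_two]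

theorem s41cRep_cancel {a b : Matrix (Fin 2) (Fin 2) ℚ} {i : OnePoint (ZMod ℓ)}
    (h : a * s41cRep ℓ i = b * s41cRep ℓ i) : a = b := by
  have hu : IsUnit (s41cRep ℓ i) := by
    rw [Matrix.isUnit_iff_isUnit_det, s41cRep_det, isUnit_iff_ne_zero]
    exact Nat.cast_ne_zero.mpr (Fact.out : ℓ.Prime).ne_zero
  exact hu.mul_left_injective h

theorem s41ch_uniq2 (hq : q.Prime) (hℓq : ℓ ≠ q) {m : Matrix (Fin 2) (Fin 2) ℚ}
    {i' i'' : OnePoint (ZMod ℓ)} {c c' : SL(2, ℚ)} (hc : c ∈ s41cG q) (hc' : c' ∈ s41cG q)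
    (h : m = (c : Matrix (Fin 2) (Fin 2) ℚ) * s41cRep ℓ i')
    (h' : m = (c' : Matrix (Fin 2) (Fin 2) ℚ) * s41cRep ℓ i'') : i' = i'' ∧ c = c' := by
  have e : s41cRep ℓ i' = ((c⁻¹ * c' : SL(2, ℚ)) : Matrix (Fin 2) (Fin 2) ℚ) * s41cRep ℓ i'' := by
    rw [Matrix.SpecialLinearGroup.coe_mul, Matrix.mul_assoc, ← h', h, ← Matrix.mul_assoc,
      ← Matrix.SpecialLinearGroup.coe_mul, inv_mul_cancel, Matrix.SpecialLinearGroup.coe_one,
      Matrix.one_mul]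
  have hi := s41ch_unique hq hℓq ((s41cG q).mul_mem ((s41cG q).inv_mem hc) hc') e
  subst hi
  refine ⟨rfl, ?_⟩
  rw [h] at h'
  exact Subtype.ext (s41cRep_cancel h')

open Classical in
/-- the action of `G` on the index set (junk outside `G`) -/
noncomputable def s41chS (hq : q.Prime) (hℓq : ℓ ≠ q) (y : SL(2, ℚ)) (i : OnePoint (ZMod ℓ)) :
    OnePoint (ZMod ℓ) :=
  if hy : y ∈ s41cG q then (s41ch_exists hq hℓq hy i).choose else i

open Classical in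
/-- the cocycle (junk outside `G`) -/
noncomputable def s41chC (hq : q.Prime) (hℓq : ℓ ≠ q) (y : SL(2, ℚ)) (i : OnePoint (ZMod ℓ)) :
    SL(2, ℚ) :=
  if hy : y ∈ s41cG q then (s41ch_exists hq hℓq hy i).choose_spec.choose else 1

theorem s41chC_spec (hq : q.Prime) (hℓq : ℓ ≠ q) {y : SL(2, ℚ)} (hy : y ∈ s41cG q)
    (i : OnePoint (ZMod ℓ)) :
    s41chC hq hℓq y i ∈ s41cG q ∧
      s41cRep ℓ i * (y : Matrix (Fin 2) (Fin 2) ℚ)
        = (s41chC hq hℓq y i : Matrix (Fin 2) (Fin 2) ℚ) * s41cRep ℓ (s41chS hq hℓq y i) := by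
  unfold s41chC s41chS
  rw [dif_pos hy, dif_pos hy]
  exact (s41ch_exists hq hℓq hy i).choose_spec.choose_spec

theorem s41chC_unique (hq : q.Prime) (hℓq : ℓ ≠ q) {y : SL(2, ℚ)} (hy : y ∈ s41cG q)
    {i i' : OnePoint (ZMod ℓ)} {c : SL(2, ℚ)} (hc : c ∈ s41cG q)
    (h : s41cRep ℓ i * (y : Matrix (Fin 2) (Fin 2) ℚ)
        = (c : Matrix (Fin 2) (Fin 2) ℚ) * s41cRep ℓ i') :
    s41chS hq hℓq y i = i' ∧ s41chC hq hℓq y i = c := by
  obtain ⟨h1, h2⟩ := s41chC_spec hq hℓq hy i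
  exact s41ch_uniq2 hq hℓq h1 hc h2 h

theorem s41chC_mul (hq : q.Prime) (hℓq : ℓ ≠ q) {y z : SL(2, ℚ)} (hy : y ∈ s41cG q)
    (hz : z ∈ s41cG q) (i : OnePoint (ZMod ℓ)) :
    s41chS hq hℓq (y * z) i = s41chS hq hℓq z (s41chS hq hℓq y i) ∧
      s41chC hq hℓq (y * z) i = s41chC hq hℓq y i * s41chC hq hℓq z (s41chS hq hℓq y i) := by
  obtain ⟨h1, h2⟩ := s41chC_spec hq hℓq hy i
  obtain ⟨h3, h4⟩ := s41chC_spec hq hℓq hz (s41chS hq hℓq y i)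
  refine s41chC_unique hq hℓq ((s41cG q).mul_mem hy hz) ((s41cG q).mul_mem h1 h3) ?_
  rw [Matrix.SpecialLinearGroup.coe_mul, ← Matrix.mul_assoc, h2, Matrix.mul_assoc, h4,
    ← Matrix.mul_assoc, ← Matrix.SpecialLinearGroup.coe_mul]

theorem s41chC_one (hq : q.Prime) (hℓq : ℓ ≠ q) (i : OnePoint (ZMod ℓ)) :
    s41chS hq hℓq 1 i = i ∧ s41chC hq hℓq 1 i = 1 :=
  s41chC_unique hq hℓq (s41cG q).one_mem (s41cG q).one_mem (by simp)

theorem s41chS_bij (hq : q.Prime) (hℓq : ℓ ≠ q) {y : SL(2, ℚ)} (hy : y ∈ s41cG q) :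
    Function.Bijective (s41chS hq hℓq y) := by
  have hy' := (s41cG q).inv_mem hy
  refine Function.bijective_iff_has_inverse.mpr ⟨s41chS hq hℓq y⁻¹, fun i => ?_, fun i => ?_⟩
  · rw [← (s41chC_mul hq hℓq hy hy' i).1, mul_inv_cancel, (s41chC_one hq hℓq i).1]
  · rw [← (s41chC_mul hq hℓq hy' hy i).1, inv_mul_cancel, (s41chC_one hq hℓq i).1]

end

/-- **(B), standard form**: `T_ℓ Φ = (ℓ + 1) Φ` for `ℓ ≡ 1 mod M*`. -/
theorem s41c_hecke_std {q : ℕ} (hq : q.Prime) {M N : ℕ} (hM : S41cAdm q M) (hNM : N ∣ M)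
    {𝔄 : Type*} [AddCommGroup 𝔄] {Φ : SL(2, ℚ) → 𝔄} (H : S41cHom q N Φ)
    {ℓ : ℕ} [Fact ℓ.Prime] (hℓq : ℓ ≠ q) (hℓ1 : ℓ ≡ 1 [MOD s41cStar M])
    {x : SL(2, ℚ)} (hx : x ∈ s41cDelta q N)
    (σ : OnePoint (ZMod ℓ) → OnePoint (ZMod ℓ)) (c : OnePoint (ZMod ℓ) → SL(2, ℚ))
    (hcG : ∀ i, c i ∈ s41cG q)
    (hc : ∀ i, s41cRep ℓ i * (x : Matrix (Fin 2) (Fin 2) ℚ)
      = (c i : Matrix (Fin 2) (Fin 2) ℚ) * s41cRep ℓ (σ i)) :
    ∑ i, Φ (c i) = (ℓ + 1) • Φ x := by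
  have hℓ : ℓ.Prime := Fact.out
  obtain ⟨mst, hmst⟩ := s41cStar_eq M
  have hNMs : N ∣ s41cStar M := hNM.trans ⟨mst, hmst⟩
  have hℓN : Nat.Coprime ℓ N := by
    have h1 : ℓ ≡ 1 [MOD N] := hℓ1.of_dvd hNMs
    have : Nat.gcd ℓ N = Nat.gcd 1 N := h1.gcd_eq
    simpa [Nat.Coprime] using this
  have hcard : Fintype.card (OnePoint (ZMod ℓ)) = ℓ + 1 := by
    have : NeZero ℓ := ⟨hℓ.ne_zero⟩
    show Fintype.card (Option (ZMod ℓ)) = ℓ + 1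
    rw [Fintype.card_option, ZMod.card]
  have key := s41c_hecke_abs hq hM hNM H (s41chC hq hℓq) (s41chS hq hℓq) (s41cRepU ℓ)
    (fun y hy => s41chS_bij hq hℓq hy)
    (fun y hy i => (s41chC_spec hq hℓq hy i).1)
    (fun y hy i => s41ch_delta hℓN hy (s41chC_spec hq hℓq hy.1 i).1 (s41chC_spec hq hℓq hy.1 i).2)
    (fun y hy z hz i => (s41chC_mul hq hℓq hy hz i).2)
    (fun y hy z hz i => (s41chC_mul hq hℓq hy hz i).1)
    (fun i => s41cU_mem_Delta (s41cA_nat q _))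
    (fun y hy i => s41ch_cong hℓ1 hy (s41chC_spec hq hℓq hy i).1 (s41chC_spec hq hℓq hy i).2)
    (fun i => by
      have hU : s41cU 1 ∈ s41cDelta q N := s41cU_mem_Delta (Subring.one_mem _)
      have hs := s41chC_spec hq hℓq hU.1 i
      exact H.unip _ (s41ch_delta hℓN hU hs.1 hs.2) (s41ch_unip hq hℓq hs.1 hs.2))
    x hx
  rw [hcard] at key
  have : ∀ i, c i = s41chC hq hℓq x i := fun i =>
    ((s41chC_unique hq hℓq hx.1 (hcG i) (hc i)).2).symm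
  simp only [this]
  exact key

end Fermat.Agent.S41
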